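import Mathlib

/-!
# S48 / P1 (helper128): formal Hecke operators on power series and finiteness of the
ring of eigenvalues

* `formalT e p` : the operator `(T g)_n = g_{pn} + e · [p ∣ n] g_{n/p}` on `ℂ⟦q⟧`.
* `coeffModule 𝒪 F` : the `𝒪`-submodule of `ℂ` spanned by the coefficients of `F`.
* `adjoin_eigenvalues_le` : if `F` has `a₁ = 1` and is an eigenvector of `formalT (e p) p` with
  eigenvalue `a p` for all `p ∈ S` (`e p ∈ 𝒪`), then `𝒪[a p : p ∈ S] ⊆ coeffModule 𝒪 F`.
* `coeffModule_fg_of_mem_span` : if `F` is a `ℂ`-linear combination of series with coefficients in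
  `𝒪`, then `coeffModule 𝒪 F` is contained in a finitely generated `𝒪`-module.
-/

set_option autoImplicit false

open PowerSeries

namespace Fermat.Agent.S48.H128

/-- The formal Hecke operator `(T g)_n = g_{pn} + e · [p ∣ n] g_{n/p}`. -/
noncomputable def formalT (e : ℂ) (p : ℕ) : PowerSeries ℂ →ₗ[ℂ] PowerSeries ℂ where
  toFun g := PowerSeries.mk fun n => coeff (p * n) g + e * (if p ∣ n then coeff (n / p) g else 0)
  map_add' g h := by
    ext n
    simp only [coeff_mk, map_add]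
    split_ifs <;> ring
  map_smul' c g := by
    ext n
    simp only [coeff_mk, map_smul, smul_eq_mul, RingHom.id_apply]
    split_ifs <;> ring

@[simp] theorem coeff_formalT (e : ℂ) (p n : ℕ) (g : PowerSeries ℂ) :
    coeff n (formalT e p g) = coeff (p * n) g + e * (if p ∣ n then coeff (n / p) g else 0) := by
  simp [formalT]

variable (𝒪 : Subring ℂ)

/-- The `𝒪`-submodule of `ℂ` spanned by the coefficients of `F`. -/
noncomputable def coeffModule (F : PowerSeries ℂ) : Submodule 𝒪 ℂ :=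
  Submodule.span 𝒪 (Set.range fun n => coeff n F)

theorem coeff_mem_coeffModule (F : PowerSeries ℂ) (n : ℕ) : coeff n F ∈ coeffModule 𝒪 F :=
  Submodule.subset_span ⟨n, rfl⟩

/-- All coefficients of `G` lie in the submodule `M`. -/
def CoeffIn (M : Submodule 𝒪 ℂ) (G : PowerSeries ℂ) : Prop := ∀ n, coeff n G ∈ M

theorem CoeffIn.formalT {M : Submodule 𝒪 ℂ} {G : PowerSeries ℂ} (hG : CoeffIn 𝒪 M G)
    {e : ℂ} (he : e ∈ 𝒪) (p : ℕ) : CoeffIn 𝒪 M (formalT e p G) := by
  intro n
  rw [coeff_formalT]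
  refine M.add_mem (hG _) ?_
  have : e * (if p ∣ n then coeff (n / p) G else 0) =
      (⟨e, he⟩ : 𝒪) • (if p ∣ n then coeff (n / p) G else 0) := rfl
  rw [this]
  refine M.smul_mem _ ?_
  split_ifs
  · exact hG _
  · exact M.zero_mem

theorem CoeffIn.smul_of_mem {M : Submodule 𝒪 ℂ} {G : PowerSeries ℂ} (hG : CoeffIn 𝒪 M G)
    {c : ℂ} (hc : c ∈ 𝒪) : CoeffIn 𝒪 M (c • G) := by
  intro n
  rw [map_smul]
  exact M.smul_mem (⟨c, hc⟩ : 𝒪) (hG n)

/-- **Eigenvalues lie in the coefficient module.** -/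
theorem adjoin_eigenvalues_le {ι : Type*} (F : PowerSeries ℂ) (h1 : coeff 1 F = 1)
    (p : ι → ℕ) (e a : ι → ℂ) (he : ∀ i, e i ∈ 𝒪)
    (hT : ∀ i, formalT (e i) (p i) F = a i • F) :
    Subalgebra.toSubmodule (Algebra.adjoin 𝒪 (Set.range a)) ≤ coeffModule 𝒪 F := by
  -- eigenvectors with coefficients in the coefficient module
  let P : PowerSeries ℂ → Prop := fun G =>
    CoeffIn 𝒪 (coeffModule 𝒪 F) G ∧ ∀ i, formalT (e i) (p i) G = a i • G
  have hF : P F := ⟨coeff_mem_coeffModule 𝒪 F, hT⟩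
  have key : ∀ m ∈ Submonoid.closure (Set.range a), ∀ G, P G → P (m • G) := by
    intro m hm
    induction hm using Submonoid.closure_induction with
    | mem x hx =>
      obtain ⟨i, rfl⟩ := hx
      intro G hG
      refine ⟨?_, fun j => ?_⟩
      · rw [← hG.2 i]
        exact CoeffIn.formalT 𝒪 hG.1 (he i) (p i)
      · rw [map_smul, hG.2 j, smul_comm]
    | one =>
      intro G hG
      rwa [one_smul]
    | mul x y _ _ hx' hy' =>
      intro G hG
      rw [mul_smul]
      exact hx' _ (hy' G hG)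
  rw [Algebra.adjoin_eq_span, Submodule.span_le]
  intro m hm
  have h := (key m hm F hF).1 1
  rw [map_smul, h1, smul_eq_mul, mul_one] at h
  exact h

/-- A `ℂ`-linear combination of series with coefficients in `𝒪` has its coefficients in a
finitely generated `𝒪`-submodule of `ℂ`. -/
theorem exists_fg_coeffIn {F : PowerSeries ℂ}
    (hF : F ∈ Submodule.span ℂ {G : PowerSeries ℂ | ∀ n, coeff n G ∈ 𝒪}) :
    ∃ M : Submodule 𝒪 ℂ, M.FG ∧ CoeffIn 𝒪 M F := by
  induction hF using Submodule.span_induction with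
  | mem G hG =>
    refine ⟨Submodule.span 𝒪 {1}, Submodule.fg_span_singleton _, fun n => ?_⟩
    have : coeff n G = (⟨coeff n G, hG n⟩ : 𝒪) • (1 : ℂ) := by
      rw [Subring.smul_def, smul_eq_mul, mul_one]
    rw [this]
    exact Submodule.smul_mem _ _ (Submodule.subset_span rfl)
  | zero =>
    exact ⟨⊥, Submodule.fg_bot, fun n => by simp⟩
  | add G H _ _ hG hH =>
    obtain ⟨M₁, h₁, hG'⟩ := hG
    obtain ⟨M₂, h₂, hH'⟩ := hH
    refine ⟨M₁ ⊔ M₂, h₁.sup h₂, fun n => ?_⟩
    rw [map_add]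
    exact Submodule.add_mem_sup (hG' n) (hH' n)
  | smul c G _ hG =>
    obtain ⟨M, hM, hG'⟩ := hG
    refine ⟨M.map (LinearMap.restrictScalars 𝒪 (LinearMap.mulLeft ℂ c)), hM.map _, fun n => ?_⟩
    rw [map_smul]
    exact ⟨coeff n G, hG' n, rfl⟩

theorem coeffModule_le_of_coeffIn {M : Submodule 𝒪 ℂ} {F : PowerSeries ℂ}
    (h : CoeffIn 𝒪 M F) : coeffModule 𝒪 F ≤ M := by
  rw [coeffModule, Submodule.span_le]
  rintro _ ⟨n, rfl⟩
  exact h n

/-- **Finiteness of the ring of Hecke eigenvalues.** -/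
theorem finite_adjoin_eigenvalues [Module.Finite ℤ 𝒪] {ι : Type*} (F : PowerSeries ℂ)
    (h1 : coeff 1 F = 1) (p : ι → ℕ) (e a : ι → ℂ) (he : ∀ i, e i ∈ 𝒪)
    (hT : ∀ i, formalT (e i) (p i) F = a i • F)
    (hF : F ∈ Submodule.span ℂ {G : PowerSeries ℂ | ∀ n, coeff n G ∈ 𝒪}) :
    Module.Finite ℤ (Algebra.adjoin 𝒪 (Set.range a)) := by
  obtain ⟨M, hM, hFM⟩ := exists_fg_coeffIn 𝒪 hF
  have hle : Subalgebra.toSubmodule (Algebra.adjoin 𝒪 (Set.range a)) ≤ M :=
    (adjoin_eigenvalues_le 𝒪 F h1 p e a he hT).trans (coeffModule_le_of_coeffIn 𝒪 hFM)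
  have : Module.Finite 𝒪 M := Module.Finite.of_fg hM
  have : Module.Finite ℤ M := Module.Finite.trans 𝒪 M
  have : IsNoetherian ℤ M := isNoetherian_of_isNoetherianRing_of_finite ℤ M
  exact Module.Finite.of_injective
    ((Submodule.inclusion hle).restrictScalars ℤ) (Submodule.inclusion_injective hle)

end Fermat.Agent.S48.H128
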