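import Fermat.Agent.S48.H128.EisChar
import Fermat.Agent.S48.H128.HeckeRing
import Fermat.Agent.S23.Cap.Main
import Fermat.Agent.S16.H260.QCalc
import Fermat.Agent.S20.C0_helper516

/-!
# S48 / P1 (helper128): integrality of the Hecke eigenvalues of a weight one eigenform

For `f : CuspForm (Gamma1 N) 1` with the hypotheses `hf₁`, `hT` of the frozen statement S48 and
with nebentypus `ε` (`hneb`, the output of piece P0):

* `exists_finite_subring` : there is a subring `R ⊆ ℂ`, finitely generated as a `ℤ`-module,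
  containing all values of `ε` and all `a_n(f)` with `n` prime to `N` (in particular the `a_p`,
  `p ∤ N`).
* `isIntegral_qCoeff` : the `a_p`, `p ∤ N`, are algebraic integers.

Proof: `h` = weight 3 Eisenstein series with character `ε⁻¹` (integral `q`-expansion `q + …`
over `ℤ[ε]`); `f h ∈ S₄(Γ₀(N))`, which is spanned by forms with integral `q`-expansion (landed
S23, any weight); hence `f` is a `ℂ`-linear combination of power series with coefficients in
`ℤ[ε]`, and the `ℤ[ε]`-module spanned by the coefficients of `f` is finitely generated; it contains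
every monomial in the eigenvalues.
-/

set_option autoImplicit false

open UpperHalfPlane ModularForm CongruenceSubgroup MatrixGroups ModularFormClass Complex
open Fermat.Agent.S20 (MF SF)
open scoped Manifold Real

noncomputable section

namespace Fermat.Agent.S48.H128

/-! ## Power series with coefficients in a subring -/

section Series

variable (𝒪 : Subring ℂ)

/-- Power series over `ℂ` with coefficients in `𝒪`. -/
def intS : Subring (PowerSeries ℂ) := (PowerSeries.map 𝒪.subtype).range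

theorem mem_intS_iff {P : PowerSeries ℂ} : P ∈ intS 𝒪 ↔ ∀ n : ℕ, P.coeff n ∈ 𝒪 := by
  constructor
  · rintro ⟨Q, rfl⟩ n
    rw [PowerSeries.coeff_map]
    exact (Q.coeff n).2
  · intro h
    refine ⟨PowerSeries.mk fun n => ⟨P.coeff n, h n⟩, ?_⟩
    ext n
    simp

/-- Division by a series `d = q + …` in `𝒪⟦q⟧`. -/
theorem mem_intS_of_mul {g h : PowerSeries ℂ} (d : PowerSeries 𝒪) (hd0 : d.coeff 0 = 0)
    (hd1 : d.coeff 1 = 1) (hg : g ∈ intS 𝒪) (h_eq : g = d.map 𝒪.subtype * h) :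
    h ∈ intS 𝒪 := by
  obtain ⟨g₀, rfl⟩ := hg
  obtain ⟨u, hu⟩ : PowerSeries.X ∣ d := by
    rw [PowerSeries.X_dvd_iff, ← PowerSeries.coeff_zero_eq_constantCoeff_apply]
    exact hd0
  have hu1 : PowerSeries.constantCoeff u = 1 := by
    have := congrArg (PowerSeries.coeff 1) hu
    rw [hd1, show (1 : ℕ) = 0 + 1 from rfl, PowerSeries.coeff_succ_X_mul,
      PowerSeries.coeff_zero_eq_constantCoeff_apply] at this
    exact this.symm
  have huu : IsUnit u := by
    rw [PowerSeries.isUnit_iff_constantCoeff, hu1]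
    exact isUnit_one
  obtain ⟨v, hv⟩ := huu.exists_left_inv
  have hg0 : PowerSeries.constantCoeff g₀ = 0 := by
    have := congrArg PowerSeries.constantCoeff h_eq
    rw [map_mul, ← PowerSeries.coeff_zero_eq_constantCoeff_apply,
      ← PowerSeries.coeff_zero_eq_constantCoeff_apply, PowerSeries.coeff_map,
      PowerSeries.coeff_map, hd0, map_zero, zero_mul] at this
    rw [← PowerSeries.coeff_zero_eq_constantCoeff_apply]
    exact Subtype.ext (by simpa using this)
  obtain ⟨g₁, hg1⟩ := PowerSeries.X_dvd_iff.mpr hg0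
  rw [hg1, hu, map_mul, map_mul, PowerSeries.map_X, mul_assoc] at h_eq
  have h2 := PowerSeries.X_mul_cancel h_eq
  refine ⟨v * g₁, ?_⟩
  rw [map_mul, h2, ← mul_assoc, ← map_mul, hv, map_one, one_mul]

/-- Existence and integrality of the quotient `P / d` for `P` without constant term. -/
theorem exists_quotient_mem_intS (d : PowerSeries 𝒪) (hd0 : d.coeff 0 = 0)
    (hd1 : d.coeff 1 = 1) {P : PowerSeries ℂ} (hP : P ∈ intS 𝒪) (hP0 : P.coeff 0 = 0) :
    ∃ E ∈ intS 𝒪, d.map 𝒪.subtype * E = P := by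
  obtain ⟨P₀, rfl⟩ := hP
  obtain ⟨u, hu⟩ : PowerSeries.X ∣ d := by
    rw [PowerSeries.X_dvd_iff, ← PowerSeries.coeff_zero_eq_constantCoeff_apply]
    exact hd0
  have hu1 : PowerSeries.constantCoeff u = 1 := by
    have := congrArg (PowerSeries.coeff 1) hu
    rw [hd1, show (1 : ℕ) = 0 + 1 from rfl, PowerSeries.coeff_succ_X_mul,
      PowerSeries.coeff_zero_eq_constantCoeff_apply] at this
    exact this.symm
  have huu : IsUnit u := by
    rw [PowerSeries.isUnit_iff_constantCoeff, hu1]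
    exact isUnit_one
  obtain ⟨v, hv⟩ := huu.exists_right_inv
  have hP0' : PowerSeries.constantCoeff P₀ = 0 := by
    rw [← PowerSeries.coeff_zero_eq_constantCoeff_apply]
    rw [PowerSeries.coeff_map] at hP0
    exact Subtype.ext (by simpa using hP0)
  obtain ⟨P₁, hP1⟩ := PowerSeries.X_dvd_iff.mpr hP0'
  refine ⟨(v * P₁).map 𝒪.subtype, ⟨_, rfl⟩, ?_⟩
  rw [← map_mul, hu, hP1]
  congr 1
  rw [mul_assoc, ← mul_assoc u, hv, one_mul]

end Series

/-! ## The nebentypus and the auxiliary Eisenstein series -/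

section Main

variable {N : ℕ} [NeZero N] (ε : DirichletCharacter ℂ N) (f : CuspForm (Gamma1 N) 1)

/-- `f` has nebentypus `ε` (output of piece P0). -/
def HasNebentypus : Prop :=
  ∀ γ : SL(2, ℤ), γ ∈ Gamma0 N →
    (⇑f : ℍ → ℂ) ∣[(1 : ℤ)] γ = ε ((γ 1 1 : ℤ) : ZMod N) • (⇑f : ℍ → ℂ)

theorem slash_neg_one_of_odd (F : ℍ → ℂ) : F ∣[(1 : ℤ)] (-1 : SL(2, ℤ)) = -F := by
  ext z
  rw [SL_slash_apply]
  have hd : denom ((-1 : SL(2, ℤ)) : GL (Fin 2) ℝ) z = -1 := by
    simp [denom]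
  have hz : ((-1 : SL(2, ℤ)) • z) = z := by
    apply UpperHalfPlane.ext
    rw [UpperHalfPlane.specialLinearGroup_apply]
    simp
  rw [hd, hz]
  simp

theorem coe_ne_zero_of_qCoeff_one (hf₁ : ModularFormClass.qCoeff f 1 = 1) :
    (⇑f : ℍ → ℂ) ≠ 0 := by
  intro h
  unfold ModularFormClass.qCoeff at hf₁
  rw [h, qExpansion_zero] at hf₁
  simp at hf₁

/-- The nebentypus of a nonzero weight one form is odd. -/
theorem eps_neg_one (hf₁ : ModularFormClass.qCoeff f 1 = 1) (hneb : HasNebentypus ε f) :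
    ε (-1) = -1 := by
  have h := hneb (-1) (by rw [Gamma0_mem]; simp)
  rw [slash_neg_one_of_odd] at h
  have hne := coe_ne_zero_of_qCoeff_one f hf₁
  obtain ⟨z, hz⟩ : ∃ z, (⇑f : ℍ → ℂ) z ≠ 0 := by
    by_contra hcon
    exact hne (funext fun z => by_contra fun hz => hcon ⟨z, hz⟩)
  have h2 := congrFun h z
  simp only [Pi.neg_apply, Pi.smul_apply, smul_eq_mul] at h2
  have h3 : ((-1 : SL(2, ℤ)) 1 1 : ℤ) = -1 := by simp
  rw [h3] at h2
  have h4 : (ε ((-1 : ℤ) : ZMod N) + 1) * f z = 0 := by rw [add_mul, ← h2]; ring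
  rcases mul_eq_zero.mp h4 with h5 | h5
  · have : ε ((-1 : ℤ) : ZMod N) = -1 := by linear_combination h5
    simpa using this
  · exact absurd h5 hz

/-- The normalised weight 3 Eisenstein series with character `χ`, `q`-expansion `q + …`. -/
def eisN (χ : DirichletCharacter ℂ N) : ℍ → ℂ := ((-2 * π * Complex.I) ^ 3)⁻¹ • eisChar χ

theorem two_pi_I_pow_ne_zero : ((-2 * π * Complex.I) ^ 3 : ℂ) ≠ 0 := by
  apply pow_ne_zero
  simp [Real.pi_ne_zero, Complex.I_ne_zero]

theorem eisN_mem_MF (χ : DirichletCharacter ℂ N) : eisN χ ∈ MF (Gamma1 N) 3 := by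
  refine ⟨(eisChar_mdiff χ).const_smul _, fun γ hγ => ?_, fun γ => ?_⟩
  · have hγ0 : γ ∈ Gamma0 N := Gamma1_in_Gamma0 N hγ
    have h11 : ((γ 1 1 : ℤ) : ZMod N) = 1 := ((Gamma1_mem N γ).mp hγ).2.1
    rw [eisN, Fermat.Agent.S20.smul_slash_SL, eisChar_slash χ γ hγ0, h11, map_one, one_smul]
  · rw [eisN, Fermat.Agent.S20.smul_slash_SL]
    exact (eisChar_slash_isBoundedAtImInfty χ γ).const_smul_left _

theorem eisN_slash (χ : DirichletCharacter ℂ N) (γ : SL(2, ℤ)) (hγ : γ ∈ Gamma0 N) :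
    eisN χ ∣[(3 : ℤ)] γ = χ ((γ 1 1 : ℤ) : ZMod N) • eisN χ := by
  rw [eisN, Fermat.Agent.S20.smul_slash_SL, eisChar_slash χ γ hγ, smul_comm]

theorem nice_eisN (χ : DirichletCharacter ℂ N) : Fermat.Agent.S16.H260.Nice (eisN χ) :=
  Fermat.Agent.S16.H260.nice_of_mem_MF (Γ := Gamma1 N)
    (by rw [Gamma1_mem]; simp [ModularGroup.T]) (eisN_mem_MF χ)

theorem qExpansion_eisN_coeff (χ : DirichletCharacter ℂ N) (hodd : χ (-1) = -1) (n : ℕ) :
    (qExpansion 1 (eisN χ)).coeff n = sigmaChi χ n := by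
  rw [eisN, qExpansion_smul (analyticAt_cuspFunction_eisChar χ hodd), map_smul,
    qExpansion_eisChar_coeff χ hodd, smul_eq_mul, ← mul_assoc,
    inv_mul_cancel₀ two_pi_I_pow_ne_zero, one_mul]

theorem coe_mem_SF_Gamma1 : (⇑f : ℍ → ℂ) ∈ SF (Gamma1 N) 1 :=
  Fermat.Agent.S20.C0h516.coe_mem_SF f

theorem nice_coe : Fermat.Agent.S16.H260.Nice (⇑f : ℍ → ℂ) := by
  have h := coe_mem_SF_Gamma1 f
  exact Fermat.Agent.S16.H260.nice_of_mem_MF (Γ := Gamma1 N) (k := 1)
    (by rw [Gamma1_mem]; simp [ModularGroup.T])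
    ⟨h.1, h.2.1, fun γ => (h.2.2 γ).boundedAtFilter⟩

/-- The unit `d` of `γ ∈ Γ₀(N)`. -/
theorem isUnit_d (γ : SL(2, ℤ)) (hγ : γ ∈ Gamma0 N) : IsUnit (((γ 1 1 : ℤ)) : ZMod N) := by
  have h10 : ((γ 1 0 : ℤ) : ZMod N) = 0 := Gamma0_mem.mp hγ
  have hdet : γ 0 0 * γ 1 1 - γ 0 1 * γ 1 0 = 1 := by
    have h := γ.det_coe
    rwa [Matrix.det_fin_two] at h
  have : ((γ 0 0 : ℤ) : ZMod N) * ((γ 1 1 : ℤ) : ZMod N) = 1 := by
    have h := congrArg (Int.cast : ℤ → ZMod N) hdet
    push_cast at h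
    rw [h10, mul_zero, sub_zero] at h
    exact h
  exact IsUnit.of_mul_eq_one _ (by rw [mul_comm]; exact this)

/-- `f · h` is a cusp form of weight 4 on `Γ₀(N)`. -/
theorem mul_eisN_mem_SF (hneb : HasNebentypus ε f) :
    (⇑f : ℍ → ℂ) * eisN ε⁻¹ ∈ SF (Gamma0 N) 4 := by
  have hf := coe_mem_SF_Gamma1 f
  have hh := eisN_mem_MF (N := N) ε⁻¹
  have h4 : (4 : ℤ) = 1 + 3 := by norm_num
  refine ⟨hf.1.mul hh.1, fun γ hγ => ?_, fun γ => ?_⟩
  · rw [h4, mul_slash_SL2, hneb γ hγ, eisN_slash ε⁻¹ γ hγ]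
    ext z
    simp only [Pi.mul_apply, Pi.smul_apply, smul_eq_mul]
    have hu := isUnit_d γ hγ
    have h1 : ε ((γ 1 1 : ℤ) : ZMod N) * ε⁻¹ ((γ 1 1 : ℤ) : ZMod N) = 1 := by
      rw [← MulChar.mul_apply, mul_inv_cancel, MulChar.one_apply hu]
    linear_combination (f z * eisN ε⁻¹ z) * h1
  · rw [h4, mul_slash_SL2]
    exact (hf.2.2 γ).mul_boundedAtFilter (hh.2.2 γ)

/-! ## The coefficient ring of the character -/

theorem isIntegral_dirichlet (χ : DirichletCharacter ℂ N) (a : ZMod N) : IsIntegral ℤ (χ a) := by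
  by_cases ha : IsUnit a
  · obtain ⟨u, rfl⟩ := ha
    have hpow : (χ (u : ZMod N)) ^ (Nat.totient N) = 1 := by
      rw [← map_pow, ← Units.val_pow_eq_pow_val, ZMod.pow_totient]
      simp
    refine IsIntegral.of_pow (Nat.totient_pos.mpr (Nat.pos_of_ne_zero (NeZero.ne N))) ?_
    rw [hpow]
    exact isIntegral_one
  · rw [χ.map_nonunit ha]
    exact isIntegral_zero

/-- The ring `ℤ[ε, ε⁻¹] ⊆ ℂ` generated by the values of `ε` and `ε⁻¹`. -/
def charAlg : Subalgebra ℤ ℂ :=
  Algebra.adjoin ℤ (Set.range (ε : ZMod N → ℂ) ∪ Set.range ((ε⁻¹ : DirichletCharacter ℂ N) : ZMod N → ℂ))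

/-- `charAlg` as a subring. -/
def charRing : Subring ℂ := (charAlg ε).toSubring

theorem eps_mem_charRing (a : ZMod N) : ε a ∈ charRing ε :=
  Algebra.subset_adjoin (Or.inl ⟨a, rfl⟩)

theorem epsInv_mem_charRing (a : ZMod N) : (ε⁻¹ : DirichletCharacter ℂ N) a ∈ charRing ε :=
  Algebra.subset_adjoin (Or.inr ⟨a, rfl⟩)

theorem fg_charAlg : (Subalgebra.toSubmodule (charAlg ε)).FG := by
  refine fg_adjoin_of_finite ((Set.finite_range _).union (Set.finite_range _)) ?_
  rintro x (⟨a, rfl⟩ | ⟨a, rfl⟩)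
  · exact isIntegral_dirichlet ε a
  · exact isIntegral_dirichlet ε⁻¹ a

instance finite_charRing : Module.Finite ℤ (charRing ε) := by
  have h1 : Module.Finite ℤ (charAlg ε) := Module.Finite.of_fg (fg_charAlg ε)
  let e : (charAlg ε) ≃ₗ[ℤ] (charRing ε) :=
    { toFun := fun x => ⟨x.1, x.2⟩
      invFun := fun x => ⟨x.1, x.2⟩
      map_add' := fun _ _ => rfl
      map_smul' := fun _ _ => by
        apply Subtype.ext
        simp
      left_inv := fun _ => rfl
      right_inv := fun _ => rfl }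
  exact Module.Finite.equiv e

theorem sigmaChi_mem (n : ℕ) : sigmaChi (ε⁻¹ : DirichletCharacter ℂ N) n ∈ charRing ε := by
  unfold sigmaChi sigmaW
  refine Subring.sum_mem _ fun x _ => ?_
  refine Subring.mul_mem _ (epsInv_mem_charRing ε _) ?_
  exact Subring.pow_mem _ (natCast_mem _ _) 2

/-- The integral `q`-expansion of `eisN ε⁻¹`. -/
def eisSeries : PowerSeries (charRing ε) :=
  PowerSeries.mk fun n => ⟨sigmaChi (ε⁻¹ : DirichletCharacter ℂ N) n, sigmaChi_mem ε n⟩

theorem map_eisSeries (hodd : ε (-1) = -1) :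
    (eisSeries ε).map (charRing ε).subtype = qExpansion 1 (eisN (ε⁻¹ : DirichletCharacter ℂ N)) := by
  have hodd' : (ε⁻¹ : DirichletCharacter ℂ N) (-1) = -1 := by
    have hu : IsUnit (-1 : ZMod N) := isUnit_one.neg
    have h1 : ε (-1) * (ε⁻¹ : DirichletCharacter ℂ N) (-1) = 1 := by
      rw [← MulChar.mul_apply, mul_inv_cancel, MulChar.one_apply hu]
    rw [hodd] at h1
    linear_combination -h1
  ext n
  rw [PowerSeries.coeff_map, qExpansion_eisN_coeff _ hodd']
  simp [eisSeries]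

/-! ## `f` is a combination of integral series -/

theorem intLattice_coeff (k : ℤ) (W : CuspForm (Gamma0 N) k) (hW : W ∈ CuspForm.intLattice N k)
    (n : ℕ) : ∃ m : ℤ, PowerSeries.coeff n (Fermat.Agent.S23.Cap.qxLin N k W) = (m : ℂ) := by
  induction hW using Submodule.span_induction with
  | mem W hW => exact hW n
  | zero => exact ⟨0, by simp⟩
  | add W₁ W₂ _ _ h₁ h₂ =>
    obtain ⟨m₁, h₁⟩ := h₁
    obtain ⟨m₂, h₂⟩ := h₂
    exact ⟨m₁ + m₂, by rw [map_add, map_add, h₁, h₂]; push_cast; rfl⟩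
  | smul z W _ h =>
    obtain ⟨m, hm⟩ := h
    exact ⟨z * m, by rw [map_zsmul, map_zsmul, hm]; simp⟩

theorem qxLin_coeff_zero (k : ℤ) (W : CuspForm (Gamma0 N) k) :
    PowerSeries.coeff 0 (Fermat.Agent.S23.Cap.qxLin N k W) = 0 :=
  CuspFormClass.qExpansion_coeff_zero W one_pos (one_mem_strictPeriods_Gamma0 N)

/-- The `q`-expansion of `f` is a `ℂ`-linear combination of power series with coefficients in
`ℤ[ε]`. -/
theorem qExpansion_mem_span (hf₁ : ModularFormClass.qCoeff f 1 = 1) (hneb : HasNebentypus ε f) :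
    qExpansion 1 (⇑f : ℍ → ℂ) ∈
      Submodule.span ℂ {G : PowerSeries ℂ | ∀ n, PowerSeries.coeff n G ∈ charRing ε} := by
  have hodd := eps_neg_one ε f hf₁ hneb
  obtain ⟨V, hV⟩ := Fermat.Agent.S20.C0h516.mem_SF_iff_exists.mp (mul_eisN_mem_SF ε f hneb)
  have hVspan : V ∈ Submodule.span ℂ
      ((CuspForm.intLattice N 4 : Submodule ℤ (CuspForm (Gamma0 N) 4)) :
        Set (CuspForm (Gamma0 N) 4)) := by
    have h := Fermat.Agent.S23.Cap.hasIntegralStructure N 4
    unfold CuspForm.HasIntegralStructure at h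
    rw [h]
    trivial
  have hd0 : (eisSeries ε).coeff 0 = 0 := by
    apply Subtype.ext
    simp [eisSeries, sigmaChi_zero]
  have hd1 : (eisSeries ε).coeff 1 = 1 := by
    apply Subtype.ext
    simp [eisSeries, sigmaChi_one]
  have key : ∀ W ∈ Submodule.span ℂ
      ((CuspForm.intLattice N 4 : Submodule ℤ (CuspForm (Gamma0 N) 4)) :
        Set (CuspForm (Gamma0 N) 4)),
      ∃ G ∈ Submodule.span ℂ {G : PowerSeries ℂ | ∀ n, PowerSeries.coeff n G ∈ charRing ε},
        (eisSeries ε).map (charRing ε).subtype * G = Fermat.Agent.S23.Cap.qxLin N 4 W := by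
    intro W hW
    induction hW using Submodule.span_induction with
    | mem W hW =>
      have hP : Fermat.Agent.S23.Cap.qxLin N 4 W ∈ intS (charRing ε) := by
        rw [mem_intS_iff]
        intro n
        obtain ⟨m, hm⟩ := intLattice_coeff 4 W hW n
        rw [hm]
        exact intCast_mem _ m
      obtain ⟨E, hE, hEq⟩ := exists_quotient_mem_intS (charRing ε) (eisSeries ε) hd0 hd1 hP
        (qxLin_coeff_zero 4 W)
      exact ⟨E, Submodule.subset_span ((mem_intS_iff _).mp hE), hEq⟩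
    | zero => exact ⟨0, Submodule.zero_mem _, by simp⟩
    | add W₁ W₂ _ _ h₁ h₂ =>
      obtain ⟨G₁, hG₁, h₁⟩ := h₁
      obtain ⟨G₂, hG₂, h₂⟩ := h₂
      exact ⟨G₁ + G₂, Submodule.add_mem _ hG₁ hG₂, by rw [mul_add, h₁, h₂, map_add]⟩
    | smul c W _ h =>
      obtain ⟨G, hG, h⟩ := h
      exact ⟨c • G, Submodule.smul_mem _ c hG, by rw [mul_smul_comm, h, map_smul]⟩
  obtain ⟨G, hG, hHG⟩ := key V hVspan
  have hmul : Fermat.Agent.S23.Cap.qxLin N 4 V =
      qExpansion 1 (⇑f : ℍ → ℂ) * (eisSeries ε).map (charRing ε).subtype := by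
    show qExpansion 1 (⇑V : ℍ → ℂ) = _
    rw [hV, qExpansion_mul (nice_coe f).analyticAt (nice_eisN _).analyticAt,
      map_eisSeries ε hodd]
  have hH0 : (eisSeries ε).map (charRing ε).subtype ≠ 0 := by
    intro h0
    have := congrArg (PowerSeries.coeff 1) h0
    rw [PowerSeries.coeff_map, hd1] at this
    simp at this
  have hGf : G = qExpansion 1 (⇑f : ℍ → ℂ) :=
    mul_left_cancel₀ hH0 (by rw [hHG, hmul, mul_comm])
  rw [← hGf]
  exact hG

/-! ## Main theorem -/

/-- **P1.** The ring generated over `ℤ[ε]` by the Hecke eigenvalues `a_p`, `p ∤ N`, of a weight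
one eigenform with nebentypus `ε` is a finitely generated `ℤ`-module. -/
theorem exists_finite_subring
    (hf₁ : ModularFormClass.qCoeff f 1 = 1)
    (hT : ∀ p : ℕ, p.Prime → ¬ p ∣ N → ∀ n : ℕ,
        ModularFormClass.qCoeff f (p * n) +
            ε (p : ZMod N) * (if p ∣ n then ModularFormClass.qCoeff f (n / p) else 0) =
          ModularFormClass.qCoeff f p * ModularFormClass.qCoeff f n)
    (hneb : HasNebentypus ε f) :
    ∃ R : Subring ℂ, Module.Finite ℤ R ∧ (∀ a : ZMod N, ε a ∈ R) ∧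
      ∀ p : ℕ, p.Prime → ¬ p ∣ N → ModularFormClass.qCoeff f p ∈ R := by
  let ι := {p : ℕ // p.Prime ∧ ¬ p ∣ N}
  let a : ι → ℂ := fun i => ModularFormClass.qCoeff f i.1
  have hfin := finite_adjoin_eigenvalues (charRing ε) (qExpansion 1 (⇑f : ℍ → ℂ)) hf₁
    (fun i : ι => i.1) (fun i => ε ((i.1 : ℕ) : ZMod N)) a
    (fun i => eps_mem_charRing ε _)
    (fun i => by
      ext n
      rw [coeff_formalT, map_smul, smul_eq_mul]
      exact hT i.1 i.2.1 i.2.2 n)
    (qExpansion_mem_span ε f hf₁ hneb)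
  refine ⟨(Algebra.adjoin (charRing ε) (Set.range a)).toSubring, ?_, fun x => ?_,
    fun p hp hpN => ?_⟩
  · let e : (Algebra.adjoin (charRing ε) (Set.range a)) ≃ₗ[ℤ]
        ((Algebra.adjoin (charRing ε) (Set.range a)).toSubring) :=
      { toFun := fun x => ⟨x.1, x.2⟩
        invFun := fun x => ⟨x.1, x.2⟩
        map_add' := fun _ _ => rfl
        map_smul' := fun _ _ => by
          apply Subtype.ext
          simp
        left_inv := fun _ => rfl
        right_inv := fun _ => rfl }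
    exact Module.Finite.equiv e
  · exact (Algebra.adjoin (charRing ε) (Set.range a)).algebraMap_mem ⟨ε x, eps_mem_charRing ε x⟩
  · exact Algebra.subset_adjoin ⟨⟨p, hp, hpN⟩, rfl⟩

/-- **P1, corollary.** The Hecke eigenvalues `a_p`, `p ∤ N`, are algebraic integers. -/
theorem isIntegral_qCoeff
    (hf₁ : ModularFormClass.qCoeff f 1 = 1)
    (hT : ∀ p : ℕ, p.Prime → ¬ p ∣ N → ∀ n : ℕ,
        ModularFormClass.qCoeff f (p * n) +
            ε (p : ZMod N) * (if p ∣ n then ModularFormClass.qCoeff f (n / p) else 0) =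
          ModularFormClass.qCoeff f p * ModularFormClass.qCoeff f n)
    (hneb : HasNebentypus ε f) (p : ℕ) (hp : p.Prime) (hpN : ¬ p ∣ N) :
    IsIntegral ℤ (ModularFormClass.qCoeff f p) := by
  obtain ⟨R, hR, -, hmem⟩ := exists_finite_subring ε f hf₁ hT hneb
  have h : IsIntegral ℤ (⟨_, hmem p hp hpN⟩ : R) := IsIntegral.of_finite ℤ _
  exact h.map (R.subtype.toIntAlgHom)

end Main

end Fermat.Agent.S48.H128
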