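import Mathlib
import Fermat.Agent.S48.Top.Spec
import Fermat.Agent.S48.H128.Integrality
import Fermat.Agent.S48.H288.GaloisConj
import Fermat.Agent.S48.H848.NebenSL
import Fermat.Agent.S23.H548.FixedField

/-!
# S48 / P1 (INT): `Top.EigenConjStatement` (helper128)

Assembly of the input P1 of the row S48, at the exact level `N`:

* the nebentypus of `f` (`H848.nebentypus_of_hecke_SL`, helper848),
* the ring `ℤ[ε][a_p : p ∤ N]` is a finitely generated `ℤ`-module
  (`H128.exists_finite_subring`), hence generates a number field `K ⊆ ℂ`,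
* every embedding `τ : K → ℂ` extends to a ring endomorphism `σ` of `ℂ`
  (`exists_ringHom_extends`, via a transcendence basis of `ℂ` over `K`),
* the conjugate form `f^σ` (`H288.exists_conj_qCoeff`, helper288) is again an eigenform,
  for the character `σ ∘ ε`.
-/

set_option autoImplicit false
set_option linter.style.haveILetI false
set_option linter.unnecessarySimpa false

open CongruenceSubgroup UpperHalfPlane
open scoped MatrixGroups ModularForm

namespace Fermat.Agent.S48.H128

/-- An embedding into `ℂ` of a subfield `K ⊆ ℂ` algebraic over `ℚ` extends to a ring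
endomorphism of `ℂ`. -/
theorem exists_ringHom_extends (K : IntermediateField ℚ ℂ) [Algebra.IsAlgebraic ℚ K]
    (τ : K →ₐ[ℚ] ℂ) : ∃ σ : ℂ →+* ℂ, ∀ x : K, σ (x : ℂ) = τ x := by
  classical
  obtain ⟨ι, v, hv⟩ := exists_isTranscendenceBasis' K ℂ
  have hvQ : AlgebraicIndependent ℚ v :=
    hv.1.restrictScalars (algebraMap ℚ K).injective
  have hvA : AlgebraicIndependent (algebraicClosure ℚ ℂ) v := hvQ.algebraicClosure
  have hτ : ∀ x : K, τ x ∈ algebraicClosure ℚ ℂ := fun x => by
    rw [mem_algebraicClosure_iff]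
    exact IsAlgebraic.algHom τ (Algebra.IsAlgebraic.isAlgebraic x)
  let τ₀ : K →+* algebraicClosure ℚ ℂ :=
    { toFun := fun x => ⟨τ x, hτ x⟩
      map_one' := Subtype.ext (map_one τ)
      map_mul' := fun x y => Subtype.ext (map_mul τ x y)
      map_zero' := Subtype.ext (map_zero τ)
      map_add' := fun x y => Subtype.ext (map_add τ x y) }
  let g : MvPolynomial ι K →+* ℂ :=
    ((MvPolynomial.aeval v :
        MvPolynomial ι (algebraicClosure ℚ ℂ) →ₐ[algebraicClosure ℚ ℂ] ℂ) : _ →+* ℂ).comp
      (MvPolynomial.map τ₀)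
  have hg : Function.Injective g := by
    have h1 : Function.Injective (MvPolynomial.map τ₀ :
        MvPolynomial ι K →+* MvPolynomial ι (algebraicClosure ℚ ℂ)) :=
      MvPolynomial.map_injective τ₀ τ₀.injective
    have h2 : Function.Injective (MvPolynomial.aeval v :
        MvPolynomial ι (algebraicClosure ℚ ℂ) →ₐ[algebraicClosure ℚ ℂ] ℂ) := hvA
    intro p q hpq
    exact h1 (h2 hpq)
  obtain ⟨σ, hσ⟩ := Fermat.Agent.S23.H548.exists_ringHom_of_transcendenceBasis v hv g hg
  refine ⟨σ, fun x => ?_⟩
  have h := hσ (MvPolynomial.C x)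
  simp only [g, RingHom.comp_apply, MvPolynomial.map_C, AlgHom.coe_toRingHom,
    MvPolynomial.aeval_C] at h
  exact h

/-- **P1 (INT) of the row S48**: the eigenvalues `a_p` (`p ∤ N`) are algebraic integers of a
number field `K ⊆ ℂ`, and every conjugate system `(τ a_p)` is again the system of eigenvalues of
a form satisfying the hypotheses of S48 (at the same level `N`, for the character `τ ∘ ε`). -/
theorem eigenConj : Fermat.Agent.S48.Top.EigenConjStatement := by
  intro N _ ε f hyp
  obtain ⟨hf₁, hT⟩ := hyp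
  have hneb : HasNebentypus ε f := Fermat.Agent.S48.H848.nebentypus_of_hecke_SL ε f hT
  obtain ⟨R, hR, -, hmem⟩ := exists_finite_subring ε f hf₁ hT hneb
  -- integrality of the elements of `R`
  have hint : ∀ x : ℂ, x ∈ R → IsIntegral ℤ x := fun x hx => by
    haveI : Module.Finite ℤ R := hR
    have h : IsIntegral ℤ (⟨x, hx⟩ : R) := Algebra.IsIntegral.isIntegral _
    exact h.map (R.subtype.toIntAlgHom)
  -- a finite generating set
  obtain ⟨S, hS⟩ := hR.fg_top
  let S' : Set ℂ := (fun x : R => (x : ℂ)) '' (S : Set R)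
  haveI hS'fin : Finite S' := (S.finite_toSet.image _).to_subtype
  let K : IntermediateField ℚ ℂ := IntermediateField.adjoin ℚ S'
  have hfd : FiniteDimensional ℚ K := by
    apply IntermediateField.finiteDimensional_adjoin
    rintro x ⟨y, -, rfl⟩
    exact ((hint y y.2).tower_top (A := ℚ))
  have hRK : ∀ x : ℂ, x ∈ R → x ∈ K := by
    intro x hx
    have hx' : (⟨x, hx⟩ : R) ∈ Submodule.span ℤ (S : Set R) := by
      rw [hS]
      exact Submodule.mem_top
    have key : ∀ y : R, y ∈ Submodule.span ℤ (S : Set R) → (y : ℂ) ∈ K := by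
      intro y hy
      induction hy using Submodule.span_induction with
      | mem y hy => exact IntermediateField.subset_adjoin ℚ S' ⟨y, hy, rfl⟩
      | zero => exact K.zero_mem
      | add y z _ _ hy hz => exact K.add_mem hy hz
      | smul n y _ hy =>
        have : ((n • y : R) : ℂ) = (n : ℂ) * (y : ℂ) := by
          rw [zsmul_eq_mul]
          push_cast
          rfl
        rw [this]
        exact K.mul_mem (by simpa using K.intCast_mem n) hy
    exact key ⟨x, hx⟩ hx'
  refine ⟨K, hfd, fun p hp hpN => ⟨hRK _ (hmem p hp hpN), hint _ (hmem p hp hpN)⟩, fun τ => ?_⟩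
  haveI : Algebra.IsAlgebraic ℚ K := Algebra.IsAlgebraic.of_finite ℚ K
  obtain ⟨σ, hσ⟩ := exists_ringHom_extends K τ
  obtain ⟨g, -, hq⟩ := Fermat.Agent.S48.H288.exists_conj_qCoeff ε f hneb σ
  refine ⟨ε.ringHomComp σ, g, ⟨?_, ?_⟩, ?_⟩
  · rw [hq, hf₁, map_one]
  · exact Fermat.Agent.S48.H288.hecke_relation_conj ε σ
      (fun n => ModularFormClass.qCoeff f n) (fun n => ModularFormClass.qCoeff g n) hq hT
  · intro p hp hpN x hx
    rw [hq, ← hx, hσ]

end Fermat.Agent.S48.H128
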