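import Mathlib

/-!
# S48 / P1 (helper128): a weighted version of `tsum_prod_pow_eq_tsum_sigma`

`∑_{d, c ≥ 1} w(d) c^k r^{dc} = ∑_{e ≥ 1} (∑_{d c = e} w(d) c^k) r^e` for a bounded weight `w`.
-/

set_option autoImplicit false

open Filter Topology Nat Finset

namespace Fermat.Agent.S48.H128

/-- The twisted divisor sum `∑_{d c = n} w(d) c^k`. -/
noncomputable def sigmaW (w : ℕ → ℂ) (k n : ℕ) : ℂ :=
  ∑ x ∈ n.divisorsAntidiagonal, w x.1 * (x.2 : ℂ) ^ k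

theorem sigmaW_zero (w : ℕ → ℂ) (k : ℕ) : sigmaW w k 0 = 0 := by
  simp [sigmaW]

theorem sigmaW_one (w : ℕ → ℂ) (k : ℕ) : sigmaW w k 1 = w 1 := by
  simp [sigmaW]

theorem summable_prod_weight (w : ℕ → ℂ) (hw : ∀ n, ‖w n‖ ≤ 1) (k : ℕ) {r : ℂ} (hr : ‖r‖ < 1) :
    Summable fun c : (ℕ+ × ℕ+) ↦ w c.1 * (c.2 : ℂ) ^ k * r ^ (c.1 * c.2 : ℕ) := by
  have h := (summable_prod_mul_pow (𝕜 := ℂ) k hr).norm
  refine Summable.of_norm (h.of_nonneg_of_le (fun _ => norm_nonneg _) fun c => ?_)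
  rw [mul_assoc, norm_mul]
  exact mul_le_of_le_one_left (norm_nonneg _) (hw _)

theorem tsum_prod_weight_eq (w : ℕ → ℂ) (hw : ∀ n, ‖w n‖ ≤ 1) (k : ℕ) {r : ℂ} (hr : ‖r‖ < 1) :
    ∑' d : ℕ+, ∑' c : ℕ+, w d * (c : ℂ) ^ k * r ^ (d * c : ℕ) =
      ∑' e : ℕ+, sigmaW w k e * r ^ (e : ℕ) := by
  have hs := summable_prod_weight w hw k hr
  rw [← hs.tsum_prod (f := fun c : ℕ+ × ℕ+ => w c.1 * (c.2 : ℂ) ^ k * r ^ (c.1 * c.2 : ℕ))]
  rw [← sigmaAntidiagonalEquivProd.tsum_eq]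
  have hs' : Summable fun x : (Σ n : ℕ+, Nat.divisorsAntidiagonal n) =>
      (fun c : ℕ+ × ℕ+ => w c.1 * (c.2 : ℂ) ^ k * r ^ (c.1 * c.2 : ℕ))
        (sigmaAntidiagonalEquivProd x) :=
    sigmaAntidiagonalEquivProd.summable_iff.mpr hs
  rw [hs'.tsum_sigma]
  refine tsum_congr fun n => ?_
  rw [tsum_fintype, sigmaW, Finset.sum_mul, Finset.univ_eq_attach]
  rw [← (n : ℕ).divisorsAntidiagonal.sum_attach
    (fun x : ℕ × ℕ => w x.1 * (x.2 : ℂ) ^ k * r ^ (n : ℕ))]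
  refine Finset.sum_congr rfl fun x _ => ?_
  have hx := Nat.mem_divisorsAntidiagonal.mp x.2
  simp only [sigmaAntidiagonalEquivProd, divisorsAntidiagonalFactors, Equiv.coe_fn_mk, PNat.mk_coe]
  rw [hx.1]

end Fermat.Agent.S48.H128
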