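import Mathlib
import Fermat.Agent.S29.H332.WeightedEis
import Fermat.Agent.S22T.Expand
import Fermat.Agent.S48.H128.TsumWeight

/-!
# S48 / P1 (helper128): the weight 3 Eisenstein series with character

For a Dirichlet character `χ` mod `N`, `eisChar χ z = ∑_{(c,d) ∈ ℤ²} χ(c) (c z + d)^{-3}`.

* `eisChar_slash` : `eisChar χ ∣[3] γ = χ(d_γ) • eisChar χ` for `γ ∈ Γ₀(N)`;
* `eisChar_mdiff`, `eisChar_slash_isBoundedAtImInfty`;
* `eisChar_eq_tsum`, `qExpansion_eisChar_coeff` : for odd `χ`,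
  `eisChar χ = (-2πi)³ ∑_{n ≥ 1} (∑_{d c = n} χ(d) c²) qⁿ`.
-/

set_option autoImplicit false

open UpperHalfPlane EisensteinSeries ModularForm Filter Topology Complex CongruenceSubgroup
open scoped Matrix MatrixGroups Manifold Real

noncomputable section

namespace Fermat.Agent.S48.H128

open Fermat.Agent.S29

variable {N : ℕ} (χ : DirichletCharacter ℂ N)

/-- The weight `v ↦ χ(v₀)`. -/
def chiWeight (v : Fin 2 → ℤ) : ℂ := χ ((v 0 : ℤ) : ZMod N)

theorem norm_chiWeight_le (v : Fin 2 → ℤ) : ‖chiWeight χ v‖ ≤ 1 :=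
  DirichletCharacter.norm_le_one χ _

/-- The weight 3 Eisenstein series `∑ χ(c) (c z + d)^{-3}`. -/
def eisChar : ℍ → ℂ := H332.wEis (chiWeight χ) 3

theorem eisChar_mdiff : MDiff (eisChar χ) :=
  H332.wEis_mdifferentiable (norm_chiWeight_le χ) le_rfl

theorem eisChar_slash_isBoundedAtImInfty (g : SL(2, ℤ)) :
    IsBoundedAtImInfty (eisChar χ ∣[(3 : ℤ)] g) :=
  H332.wEis_slash_isBoundedAtImInfty (norm_chiWeight_le χ) le_rfl g

theorem chiWeight_vecMul_inv (γ : SL(2, ℤ)) (hγ : γ ∈ Gamma0 N) (v : Fin 2 → ℤ) :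
    chiWeight χ (v ᵥ* (γ⁻¹).1) = χ ((γ 1 1 : ℤ) : ZMod N) * chiWeight χ v := by
  have h10 : ((γ 1 0 : ℤ) : ZMod N) = 0 := Gamma0_mem.mp hγ
  have hinv : (γ⁻¹).1 = !![γ 1 1, -γ 0 1; -γ 1 0, γ 0 0] := by
    rw [Matrix.SpecialLinearGroup.coe_inv, Matrix.adjugate_fin_two]
  have h0 : (v ᵥ* (γ⁻¹).1) 0 = v 0 * γ 1 1 + v 1 * (-γ 1 0) := by
    rw [hinv]
    simp [Matrix.vecMul, dotProduct, Fin.sum_univ_two]
  unfold chiWeight
  rw [h0, ← map_mul]
  congr 1
  push_cast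
  rw [h10]
  ring

theorem eisChar_slash (γ : SL(2, ℤ)) (hγ : γ ∈ Gamma0 N) :
    eisChar χ ∣[(3 : ℤ)] γ = χ ((γ 1 1 : ℤ) : ZMod N) • eisChar χ := by
  unfold eisChar
  rw [H332.wEis_slash]
  ext z
  simp only [H332.wEis, Pi.smul_apply, smul_eq_mul]
  rw [← tsum_mul_left]
  refine tsum_congr fun v => ?_
  rw [chiWeight_vecMul_inv χ γ hγ, mul_assoc]

/-! ## The `q`-expansion -/

/-- The character as a weight on `ℕ`. -/
def chiNat (d : ℕ) : ℂ := χ ((d : ℕ) : ZMod N)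

theorem norm_chiNat_le (d : ℕ) : ‖chiNat χ d‖ ≤ 1 := DirichletCharacter.norm_le_one χ _

/-- The twisted divisor sum `∑_{d c = n} χ(d) c²`. -/
def sigmaChi (n : ℕ) : ℂ := sigmaW (chiNat χ) 2 n

theorem sigmaChi_zero : sigmaChi χ 0 = 0 := sigmaW_zero _ _

theorem sigmaChi_one : sigmaChi χ 1 = 1 := by
  rw [sigmaChi, sigmaW_one, chiNat]
  simp

theorem summable_chi_prod (z : ℍ) :
    Summable fun x : ℤ × ℤ ↦ chiWeight χ ![x.1, x.2] * eisSummand 3 ![x.1, x.2] z := by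
  have h := H332.summable_wEis (norm_chiWeight_le χ) (k := 3) le_rfl z
  refine (finTwoArrowEquiv ℤ).summable_iff.mp (h.congr fun v => ?_)
  simp [show ![v 0, v 1] = v from List.ofFn_inj.mp rfl]

theorem chi_zero_of_odd (hodd : χ (-1) = -1) : χ (0 : ZMod N) = 0 := by
  apply χ.map_nonunit
  intro h0
  have hN : N = 1 := by
    by_contra hN
    rcases Nat.eq_zero_or_pos N with rfl | hpos
    · simp at h0
    · have : Fact (1 < N) := ⟨by omega⟩
      exact not_isUnit_zero h0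
  subst hN
  have h1 : (-1 : ZMod 1) = 1 := Subsingleton.elim _ _
  rw [h1, map_one] at hodd
  norm_num at hodd

theorem eisChar_eq_tsum (hodd : χ (-1) = -1) (z : ℍ) :
    eisChar χ z = (-2 * π * Complex.I) ^ 3 *
      ∑' n : ℕ+, sigmaChi χ n * cexp (2 * π * Complex.I * z) ^ (n : ℕ) := by
  have hsum := summable_chi_prod χ z
  unfold eisChar H332.wEis
  rw [← (finTwoArrowEquiv ℤ).symm.tsum_eq]
  simp only [finTwoArrowEquiv_symm_apply]
  rw [hsum.tsum_prod, tsum_int_eq_zero_add_two_mul_tsum_pnat (fun n ↦ ?h₁)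
      (by simpa using hsum.prod)]
  case h₁ =>
    nth_rewrite 1 [← tsum_comp_neg]
    refine tsum_congr fun y => ?_
    have hc : chiWeight χ ![-n, -y] = - chiWeight χ ![n, y] := by
      simp only [chiWeight, Matrix.cons_val_zero]
      rw [Int.cast_neg, ← neg_one_mul, map_mul, hodd, neg_one_mul]
    have he : eisSummand 3 ![-n, -y] z = - eisSummand 3 ![n, y] z := by
      simp only [eisSummand, Matrix.cons_val_zero, Matrix.cons_val_one, Int.cast_neg]
      rw [show (-(n : ℂ) * (z : ℂ) + -(y : ℂ)) = -((n : ℂ) * z + y) by ring]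
      rw [Odd.neg_zpow (by decide : Odd (-3 : ℤ))]
    rw [hc, he, neg_mul_neg]
  have h0 : ∑' d : ℤ, chiWeight χ ![0, d] * eisSummand 3 ![0, d] z = 0 := by
    have : ∀ d : ℤ, chiWeight χ ![0, d] * eisSummand 3 ![0, d] z = 0 := fun d => by
      simp [chiWeight, chi_zero_of_odd χ hodd]
    simp [this]
  rw [h0, zero_add]
  have H (b : ℕ+) := qExpansion_identity_pnat (k := 2) (by norm_num)
    ⟨b * z, by simpa using z.2⟩
  have hterm : ∀ b : ℕ+, ∑' d : ℤ, chiWeight χ ![(b : ℤ), d] * eisSummand 3 ![(b : ℤ), d] z =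
      ((-2 * π * Complex.I) ^ 3 / 2) * ∑' c : ℕ+, chiNat χ b * (c : ℂ) ^ 2 *
        cexp (2 * π * Complex.I * z) ^ (b * c : ℕ) := by
    intro b
    have hb := H b
    simp only at hb
    have h1 : ∀ d : ℤ, chiWeight χ ![(b : ℤ), d] * eisSummand 3 ![(b : ℤ), d] z =
        chiNat χ b * (1 / ((b : ℂ) * z + d) ^ (2 + 1)) := by
      intro d
      simp only [chiWeight, chiNat, eisSummand, Matrix.cons_val_zero, Matrix.cons_val_one]
      congr 1
      · simp
      · rw [show (-(3 : ℤ)) = -((3 : ℕ) : ℤ) by norm_num, zpow_neg, zpow_natCast]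
        simp
    simp_rw [h1]
    rw [tsum_mul_left, hb, Nat.factorial_two]
    rw [← tsum_mul_left, ← tsum_mul_left, ← tsum_mul_left]
    refine tsum_congr fun c => ?_
    rw [← Complex.exp_nat_mul, ← Complex.exp_nat_mul]
    push_cast
    ring_nf
  simp_rw [hterm]
  simp only [sigmaChi]
  rw [tsum_mul_left, ← tsum_prod_weight_eq (chiNat χ) (norm_chiNat_le χ) 2
    (norm_exp_two_pi_I_lt_one z), nsmul_eq_mul]
  push_cast
  ring

theorem norm_sigmaChi_le (n : ℕ) : ‖sigmaChi χ n‖ ≤ (n : ℝ) ^ 3 := by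
  unfold sigmaChi sigmaW
  refine (norm_sum_le _ _).trans ?_
  have h1 : ∀ x ∈ n.divisorsAntidiagonal, ‖chiNat χ x.1 * (x.2 : ℂ) ^ 2‖ ≤ (n : ℝ) ^ 2 := by
    intro x hx
    rw [norm_mul, norm_pow, Complex.norm_natCast]
    have hx' := Nat.mem_divisorsAntidiagonal.mp hx
    have hle : x.2 ≤ n := Nat.le_of_dvd (Nat.pos_of_ne_zero hx'.2) ⟨x.1, by rw [← hx'.1, mul_comm]⟩
    have hle' : (x.2 : ℝ) ≤ n := by exact_mod_cast hle
    calc ‖chiNat χ x.1‖ * (x.2 : ℝ) ^ 2 ≤ 1 * (n : ℝ) ^ 2 := by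
          gcongr
          exact norm_chiNat_le χ _
      _ = (n : ℝ) ^ 2 := one_mul _
  refine (Finset.sum_le_card_nsmul _ _ _ h1).trans ?_
  rw [nsmul_eq_mul]
  have hcard : (n.divisorsAntidiagonal.card : ℝ) ≤ n := by
    rw [← Nat.map_div_right_divisors, Finset.card_map]
    exact_mod_cast Nat.card_divisors_le_self n
  calc (n.divisorsAntidiagonal.card : ℝ) * (n : ℝ) ^ 2 ≤ n * (n : ℝ) ^ 2 := by gcongr
    _ = (n : ℝ) ^ 3 := by ring

theorem summable_sigmaChi_mul_pow (z : ℍ) :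
    Summable fun n : ℕ ↦ sigmaChi χ n * cexp (2 * π * Complex.I * z) ^ n := by
  apply Summable.of_norm_bounded
    (summable_norm_pow_mul_geometric_of_norm_lt_one 3 (norm_exp_two_pi_I_lt_one z))
  intro n
  simp only [norm_mul, norm_pow, Complex.norm_natCast]
  gcongr
  exact norm_sigmaChi_le χ n

local notation "𝕢" => Function.Periodic.qParam

theorem hasSum_eisChar (hodd : χ (-1) = -1) (z : ℍ) :
    HasSum (fun n : ℕ => ((-2 * π * Complex.I) ^ 3 * sigmaChi χ n) • 𝕢 1 z ^ n) (eisChar χ z) := by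
  have hS := summable_sigmaChi_mul_pow χ z
  have h1 : ∑' n : ℕ+, sigmaChi χ n * cexp (2 * π * Complex.I * z) ^ (n : ℕ) =
      ∑' n : ℕ, sigmaChi χ n * cexp (2 * π * Complex.I * z) ^ n := by
    rw [← tsum_zero_pnat_eq_tsum_nat hS]
    simp [sigmaChi_zero]
  rw [eisChar_eq_tsum χ hodd z, h1]
  have h2 := (hS.mul_left ((-2 * π * Complex.I) ^ 3)).hasSum
  rw [tsum_mul_left] at h2
  convert! h2 using 1
  funext n
  simp only [smul_eq_mul, Function.Periodic.qParam, Complex.ofReal_one, div_one]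
  ring

/-- The `q`-expansion of `eisChar χ`, `χ` odd. -/
theorem qExpansion_eisChar_coeff (hodd : χ (-1) = -1) (n : ℕ) :
    (qExpansion 1 (eisChar χ)).coeff n = (-2 * π * Complex.I) ^ 3 * sigmaChi χ n :=
  Fermat.Agent.S22T.qExpansion_coeff_of_hasSum one_pos (hasSum_eisChar χ hodd) (eisChar_mdiff χ) n

theorem analyticAt_cuspFunction_eisChar (hodd : χ (-1) = -1) :
    AnalyticAt ℂ (cuspFunction 1 (eisChar χ)) 0 :=
  Fermat.Agent.S22T.mem_analyticSubring_of_hasSum one_pos (hasSum_eisChar χ hodd)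
    (eisChar_mdiff χ)

end Fermat.Agent.S48.H128
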