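import Fermat.Agent.S48.H248.IVNormal
import Fermat.Agent.S18.H264.SepGraph
import Fermat.Agent.S18.Mod.H216.Parts

/-!
# S48 / RES (Tower A1) / A1-RED, leaf SEP1 (helper128): the field `separable`, GENERIC

Setting of `S48/H248/IVBasic.lean` (helper248): `K` a field (`Q̄`), `A` a valuation subring of
`K`, `E` a subfield of `K`, `Ω` a field with a ring hom `ι : Ω →+* K((X))`, `F` a subfield of
`Ω`, `cst : K →+* Ω` the constants, `V = H248.VRing A E ι F` the Gauss valuation ring of `F`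
(same shape as `S18.Mod.VcSet`).

Main results (namespace `Fermat.Agent.S48.H128`):

* `sepRel A E ι F`               : the reduction relation (`(g, ḡ)`, `g = U₁/U₂`, `ḡ = Ū₁/Ū₂`);
* `exists_reduced_relation`      : **Gauss normalisation**: a nontrivial `K`-linear relation between
                                   elements having reductions yields a nontrivial `κ`-linear relation
                                   between the reductions;
* `isAlgebraic_red_of_biRel`     : `f` algebraic over `K(x)` ⟹ `f̄` algebraic over `𝔽_ℓ(x̄)`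
                                   (NO `CoreData`, no degree count);
* `separable_VRing`              : the field `separable` of `S18.Alg.GoodModel` /
                                   `S48.H588.StepCore` for `V = VRing A E ι F`, any coordinate `x`
                                   which is an integral series with `ℓ ∤ ord (x̄)`;
* `partSep_VRing`, `partSep_VRing_of_finite` : the same as `S18.Mod.H216.PartSep`.
-/

set_option autoImplicit false

noncomputable section

namespace Fermat.Agent.S48.H128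

open HahnSeries ModularCurve Polynomial
open Fermat.Agent.S48.H248

section Rel

variable {K : Type*} [Field K] (A : ValuationSubring K) (E : Subfield K)
variable {Ω : Type*} [Field Ω] (ι : Ω →+* LaurentSeries K) (F : Subfield Ω)

/-- The reduction relation on the Gauss valuation ring `H248.VRing A E ι F`:
`(g, ḡ) ∈ sepRel` iff `g = U₁/U₂` and `ḡ = Ū₁/Ū₂` for integral series `U₁, U₂` (in the sense of
`H248.IsInt`) with `Ū₂ ≠ 0`. -/
def sepRel : Subring (Ω × LaurentSeries (IsLocalRing.ResidueField A)) where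
  carrier := {z | z.1 ∈ F ∧ ∃ U₁ U₂ : LaurentSeries A, IsInt A E ι F U₁ ∧ IsInt A E ι F U₂ ∧
    ivRed A U₂ ≠ 0 ∧ ι z.1 * ivInc A U₂ = ivInc A U₁ ∧ z.2 * ivRed A U₂ = ivRed A U₁}
  zero_mem' := by
    refine ⟨zero_mem _, 0, 1, isInt_zero, isInt_one, ?_, ?_, ?_⟩
    · rw [map_one]; exact one_ne_zero
    · simp
    · simp
  one_mem' := by
    refine ⟨one_mem _, 1, 1, isInt_one, isInt_one, ?_, ?_, ?_⟩
    · rw [map_one]; exact one_ne_zero
    · simp
    · simp
  add_mem' := by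
    rintro ⟨f, a⟩ ⟨g, b⟩ ⟨hf, U₁, U₂, h₁, h₂, hne, heq, hred⟩ ⟨hg, W₁, W₂, k₁, k₂, kne, keq, kred⟩
    refine ⟨add_mem hf hg, U₁ * W₂ + W₁ * U₂, U₂ * W₂, IsInt.add (IsInt.mul h₁ k₂) (IsInt.mul k₁ h₂),
      IsInt.mul h₂ k₂, ?_, ?_, ?_⟩
    · rw [map_mul]; exact mul_ne_zero hne kne
    · simp only [Prod.fst_add] at heq keq ⊢
      rw [map_add, map_add, map_mul, map_mul, map_mul, ← heq, ← keq]
      ring
    · simp only [Prod.snd_add] at hred kred ⊢
      rw [map_add, map_mul, map_mul, map_mul, ← hred, ← kred]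
      ring
  neg_mem' := by
    rintro ⟨f, a⟩ ⟨hf, U₁, U₂, h₁, h₂, hne, heq, hred⟩
    refine ⟨neg_mem hf, -U₁, U₂, IsInt.neg h₁, h₂, hne, ?_, ?_⟩
    · simp only [Prod.fst_neg] at heq ⊢
      rw [map_neg, map_neg, ← heq]
      ring
    · simp only [Prod.snd_neg] at hred ⊢
      rw [map_neg, ← hred]
      ring
  mul_mem' := by
    rintro ⟨f, a⟩ ⟨g, b⟩ ⟨hf, U₁, U₂, h₁, h₂, hne, heq, hred⟩ ⟨hg, W₁, W₂, k₁, k₂, kne, keq, kred⟩
    refine ⟨mul_mem hf hg, U₁ * W₁, U₂ * W₂, IsInt.mul h₁ k₁, IsInt.mul h₂ k₂, ?_, ?_, ?_⟩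
    · rw [map_mul]; exact mul_ne_zero hne kne
    · simp only [Prod.fst_mul] at heq keq ⊢
      rw [map_mul, map_mul, map_mul, ← heq, ← keq]
      ring
    · simp only [Prod.snd_mul] at hred kred ⊢
      rw [map_mul, map_mul, ← hred, ← kred]
      ring

variable {A E ι F}

theorem mem_sepRel {g : Ω} {a : LaurentSeries (IsLocalRing.ResidueField A)} :
    (g, a) ∈ sepRel A E ι F ↔ g ∈ F ∧ ∃ U₁ U₂ : LaurentSeries A, IsInt A E ι F U₁ ∧
      IsInt A E ι F U₂ ∧ ivRed A U₂ ≠ 0 ∧ ι g * ivInc A U₂ = ivInc A U₁ ∧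
      a * ivRed A U₂ = ivRed A U₁ := Iff.rfl

/-- every element of the Gauss valuation ring has a reduction. -/
theorem exists_sepRel_of_mem_VRing {f : Ω} (hf : f ∈ VRing A E ι F) :
    ∃ a, (f, a) ∈ sepRel A E ι F := by
  obtain ⟨hfF, U₁, U₂, h₁, h₂, hne, heq⟩ := hf
  refine ⟨ivRed A U₁ * (ivRed A U₂)⁻¹, hfF, U₁, U₂, h₁, h₂, hne, heq, ?_⟩
  rw [mul_assoc, inv_mul_cancel₀ hne, mul_one]

theorem mem_VRing_of_sepRel {g : Ω} {a : LaurentSeries (IsLocalRing.ResidueField A)}
    (h : (g, a) ∈ sepRel A E ι F) : g ∈ VRing A E ι F := by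
  obtain ⟨hgF, U₁, U₂, h₁, h₂, hne, heq, -⟩ := h
  exact ⟨hgF, U₁, U₂, h₁, h₂, hne, heq⟩

/-- the reduction of `0` is `0`. -/
theorem sepRel_zero_left {b : LaurentSeries (IsLocalRing.ResidueField A)}
    (h : ((0 : Ω), b) ∈ sepRel A E ι F) : b = 0 := by
  obtain ⟨-, U₁, U₂, -, -, hne, heq, hred⟩ := h
  have h0 : ivInc A U₁ = 0 := by
    rw [← heq]
    simp
  have hU : U₁ = 0 := ivInc_injective (by rw [h0, map_zero])
  rw [hU, map_zero] at hred
  rcases mul_eq_zero.mp hred with h | h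
  · exact h
  · exact absurd h hne

/-- an element with nonzero reduction is a unit of the Gauss valuation ring. -/
theorem sepRel_unit {g : Ω} {a : LaurentSeries (IsLocalRing.ResidueField A)}
    (h : (g, a) ∈ sepRel A E ι F) (ha : a ≠ 0) : g ≠ 0 ∧ g⁻¹ ∈ VRing A E ι F := by
  obtain ⟨hgF, U₁, U₂, h₁, h₂, hne, heq, hred⟩ := h
  have hne₁ : ivRed A U₁ ≠ 0 := by
    rw [← hred]
    exact mul_ne_zero ha hne
  have hg0 : g ≠ 0 := by
    rintro rfl
    apply hne₁
    have h0 : ivInc A U₁ = 0 := by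
      rw [← heq]
      simp
    have hU : U₁ = 0 := ivInc_injective (by rw [h0, map_zero])
    rw [hU, map_zero]
  refine ⟨hg0, inv_mem hgF, U₂, U₁, h₂, h₁, hne₁, ?_⟩
  have hg0' : ι g ≠ 0 := fun h => hg0 (ι.injective (by rw [h, map_zero]))
  rw [map_inv₀, ← heq, ← mul_assoc, inv_mul_cancel₀ hg0', one_mul]

/-- the relation is monotone in `E` and `F`. -/
theorem sepRel_mono {E' : Subfield K} {F' : Subfield Ω} (hE : E ≤ E') (hF : F ≤ F') :
    sepRel A E ι F ≤ sepRel A E' ι F' := by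
  rintro ⟨g, a⟩ ⟨hgF, U₁, U₂, h₁, h₂, hne, heq, hred⟩
  have key : ∀ U : LaurentSeries A, IsInt A E ι F U → IsInt A E' ι F' U := by
    rintro U ⟨h1, f, hf, hfU⟩
    exact ⟨fun n => hE (h1 n), f, hF hf, hfU⟩
  exact ⟨hF hgF, U₁, U₂, key _ h₁, key _ h₂, hne, heq, hred⟩

/-- an integral series is related to its reduction. -/
theorem sepRel_of_isInt {x : Ω} {X₀ : LaurentSeries A} (hX₀ : IsInt A E ι F X₀)
    (hx : ι x = ivInc A X₀) : (x, ivRed A X₀) ∈ sepRel A E ι F := by
  obtain ⟨f, hf, hfU⟩ := hX₀.2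
  have hxf : x = f := ι.injective (by rw [hx, hfU])
  refine ⟨hxf ▸ hf, X₀, 1, hX₀, isInt_one, ?_, ?_, ?_⟩
  · rw [map_one]; exact one_ne_zero
  · rw [map_one, mul_one, hx]
  · rw [map_one, mul_one]

section Constants

variable (cst : K →+* Ω) (hcst : ∀ c : K, ι (cst c) = HahnSeries.C c)

include hcst

/-- constants of `A ∩ E` are related to their residue classes. -/
theorem sepRel_cst (hEF : ∀ c ∈ E, cst c ∈ F) (c : A) (hc : (c : K) ∈ E) :
    (cst (c : K), HahnSeries.C (IsLocalRing.residue A c)) ∈ sepRel A E ι F := by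
  have h := sepRel_of_isInt (x := cst (c : K)) (isInt_C cst hcst hEF hc)
    (by rw [hcst, ivInc_C])
  rwa [ivRed_C] at h

/-- an element with zero reduction is divisible by the uniformiser (hypothesis in the weak
form `gen`, implied by `H248.IsUnifG.gen`). -/
theorem sepRel_ker (hEF : ∀ c ∈ E, cst c ∈ F) {w₀ : K} (hwE : w₀ ∈ E)
    (hw0 : w₀ ≠ 0) (hgen : ∀ c : K, c ∈ A → c ∈ E → c⁻¹ ∉ A → c * w₀⁻¹ ∈ A) {g : Ω}
    (h : (g, (0 : LaurentSeries (IsLocalRing.ResidueField A))) ∈ sepRel A E ι F) :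
    g * (cst w₀)⁻¹ ∈ VRing A E ι F := by
  obtain ⟨hgF, U₁, U₂, h₁, h₂, hne, heq, hred⟩ := h
  rw [zero_mul] at hred
  have hcoef : ∀ n, (HahnSeries.C (w₀⁻¹) * ivInc A U₁).coeff n ∈ A := by
    intro n
    rw [HahnSeries.C_mul_eq_smul, HahnSeries.coeff_smul, ivInc_coeff, smul_eq_mul, mul_comm]
    have hm := (ivRed_eq_zero_iff U₁).mp hred.symm n
    rcases (iv_mem_maximalIdeal_iff _).mp hm with h0 | hni
    · rw [h0, zero_mul]; exact A.zero_mem
    · exact hgen _ (U₁.coeff n).2 (h₁.1 n) hni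
  obtain ⟨U', hU'⟩ := exists_ivInc_eq hcoef
  obtain ⟨f, hf, hfU⟩ := h₁.2
  have hCw : (HahnSeries.C w₀ : LaurentSeries K) ≠ 0 := by
    rw [← hcst]
    exact fun h => hw0 (cst.injective (ι.injective (by rw [h, map_zero, map_zero])))
  have hU'int : IsInt A E ι F U' := by
    refine ⟨fun n => ?_, (cst w₀)⁻¹ * f, mul_mem (inv_mem (hEF _ hwE)) hf, ?_⟩
    · rw [← ivInc_coeff, hU', HahnSeries.C_mul_eq_smul, HahnSeries.coeff_smul, smul_eq_mul]
      exact E.mul_mem (E.inv_mem hwE) (h₁.coeff_mem n)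
    · rw [map_mul, map_inv₀, hcst, hfU, hU', ← map_inv₀]
  refine ⟨mul_mem hgF (inv_mem (hEF _ hwE)), U', U₂, hU'int, h₂, hne, ?_⟩
  rw [map_mul, map_inv₀, hcst, hU', ← heq, map_inv₀]
  ring

end Constants

end Rel

/-! ### Gauss normalisation -/

section Normalise

variable {K : Type*} [Field K] {A : ValuationSubring K}
variable {Ω : Type*} [Field Ω] {ι : Ω →+* LaurentSeries K}
variable (cst : K →+* Ω) (hcst : ∀ c : K, ι (cst c) = HahnSeries.C c)

include hcst

/-- **Gauss normalisation.**  A nontrivial `K`-linear relation between elements `g m` having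
reductions `gb m` gives a nontrivial `κ`-linear relation between the reductions (divide by the
coefficient of largest absolute value; all quotients lie in the valuation ring `A`). -/
theorem exists_reduced_relation {σ : Type*} (s : Finset σ) (c : σ → K) (g : σ → Ω)
    (gb : σ → LaurentSeries (IsLocalRing.ResidueField A))
    (hg : ∀ m ∈ s, (g m, gb m) ∈ sepRel A ⊤ ι ⊤)
    (hc : ∃ m ∈ s, c m ≠ 0) (hsum : ∑ m ∈ s, cst (c m) * g m = 0) :
    ∃ d : σ → IsLocalRing.ResidueField A, (∃ m ∈ s, d m = 1) ∧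
      ∑ m ∈ s, HahnSeries.C (d m) * gb m = 0 := by
  classical
  obtain ⟨m₀, hm₀s, hm₀⟩ := hc
  have hne : (s.filter (fun m => c m ≠ 0)).Nonempty :=
    ⟨m₀, Finset.mem_filter.mpr ⟨hm₀s, hm₀⟩⟩
  obtain ⟨m₁, hm₁, hmax⟩ := Finset.exists_max_image _ (fun m => A.valuation (c m)) hne
  obtain ⟨hm₁s, hc₁⟩ := Finset.mem_filter.mp hm₁
  have hv₁ : A.valuation (c m₁) ≠ 0 := (Valuation.ne_zero_iff _).mpr hc₁
  have hle : ∀ m ∈ s, c m / c m₁ ∈ A := by
    intro m hm
    rw [← A.valuation_le_one_iff, map_div₀]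
    by_cases h0 : c m = 0
    · rw [h0, map_zero, zero_div]
      exact zero_le_one
    · exact (div_le_one₀ (zero_lt_iff.mpr hv₁)).mpr (hmax m (Finset.mem_filter.mpr ⟨hm, h0⟩))
  let e : σ → A := fun m => if h : c m / c m₁ ∈ A then ⟨c m / c m₁, h⟩ else 0
  have he : ∀ m ∈ s, ((e m : A) : K) = c m / c m₁ := by
    intro m hm
    simp only [e, dif_pos (hle m hm)]
  refine ⟨fun m => IsLocalRing.residue A (e m), ⟨m₁, hm₁s, ?_⟩, ?_⟩
  · have h1 : e m₁ = 1 := Subtype.ext (by rw [he m₁ hm₁s, div_self hc₁]; rfl)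
    show IsLocalRing.residue A (e m₁) = 1
    rw [h1, map_one]
  · have hmem : ∑ m ∈ s, ((cst ((e m : A) : K), HahnSeries.C (IsLocalRing.residue A (e m))) :
        Ω × LaurentSeries (IsLocalRing.ResidueField A)) * (g m, gb m) ∈ sepRel A ⊤ ι ⊤ :=
      sum_mem fun m hm => mul_mem
        (sepRel_cst cst hcst (fun _ _ => Subfield.mem_top _) (e m) (Subfield.mem_top _)) (hg m hm)
    have h1 : (∑ m ∈ s, ((cst ((e m : A) : K), HahnSeries.C (IsLocalRing.residue A (e m))) :
        Ω × LaurentSeries (IsLocalRing.ResidueField A)) * (g m, gb m)) =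
        (0, ∑ m ∈ s, HahnSeries.C (IsLocalRing.residue A (e m)) * gb m) := by
      apply Prod.ext
      · rw [Prod.fst_sum]
        simp only [Prod.mk_mul_mk]
        have h2 : ∀ m ∈ s, cst ((e m : A) : K) * g m = (cst (c m₁))⁻¹ * (cst (c m) * g m) := by
          intro m hm
          rw [he m hm, map_div₀]
          ring
        rw [Finset.sum_congr rfl h2, ← Finset.mul_sum, hsum, mul_zero]
      · rw [Prod.snd_sum]
        simp only [Prod.mk_mul_mk]
    rw [h1] at hmem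
    exact sepRel_zero_left hmem

/-- The bivariate form: a nonzero `P ∈ K[X][Y]` with `P(x, f) = 0` gives a nontrivial relation
`∑ d(i,k) x̄^k f̄^i = 0` over the residue field. -/
theorem exists_reduced_biRel {x f : Ω} {xb a : LaurentSeries (IsLocalRing.ResidueField A)}
    (hx : (x, xb) ∈ sepRel A ⊤ ι ⊤) (hf : (f, a) ∈ sepRel A ⊤ ι ⊤)
    (P : Polynomial (Polynomial K)) (hP : P ≠ 0)
    (hPf : P.eval₂ (Polynomial.eval₂RingHom cst x) f = 0) :
    ∃ (N₁ N₂ : ℕ) (d : ℕ × ℕ → IsLocalRing.ResidueField A),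
      (∃ m ∈ Finset.range N₁ ×ˢ Finset.range N₂, d m = 1) ∧
      ∑ m ∈ Finset.range N₁ ×ˢ Finset.range N₂, HahnSeries.C (d m) * (xb ^ m.2 * a ^ m.1) = 0 := by
  classical
  set N₁ := P.natDegree + 1 with hN₁
  set N₂ := (Finset.range N₁).sup (fun i => (P.coeff i).natDegree) + 1 with hN₂
  have hdeg : ∀ i ∈ Finset.range N₁, (P.coeff i).natDegree < N₂ := by
    intro i hi
    rw [hN₂, Nat.lt_succ_iff]
    exact Finset.le_sup (f := fun i => (P.coeff i).natDegree) hi
  have hg : ∀ m ∈ Finset.range N₁ ×ˢ Finset.range N₂,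
      (x ^ m.2 * f ^ m.1, xb ^ m.2 * a ^ m.1) ∈ sepRel A ⊤ ι ⊤ := by
    intro m _
    have h1 : ((x, xb) : Ω × LaurentSeries (IsLocalRing.ResidueField A)) ^ m.2 * (f, a) ^ m.1 ∈
        sepRel A ⊤ ι ⊤ := mul_mem (pow_mem hx _) (pow_mem hf _)
    have h2 : ((x, xb) : Ω × LaurentSeries (IsLocalRing.ResidueField A)) ^ m.2 * (f, a) ^ m.1 =
        (x ^ m.2 * f ^ m.1, xb ^ m.2 * a ^ m.1) := by
      rw [Prod.pow_mk, Prod.pow_mk, Prod.mk_mul_mk]
    rwa [h2] at h1
  have hc : ∃ m ∈ Finset.range N₁ ×ˢ Finset.range N₂, (P.coeff m.1).coeff m.2 ≠ 0 := by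
    have hlc : P.coeff P.natDegree ≠ 0 := by
      rw [Polynomial.coeff_natDegree]
      exact Polynomial.leadingCoeff_ne_zero.mpr hP
    have hlc' : (P.coeff P.natDegree).coeff (P.coeff P.natDegree).natDegree ≠ 0 := by
      rw [Polynomial.coeff_natDegree]
      exact Polynomial.leadingCoeff_ne_zero.mpr hlc
    have hi : P.natDegree ∈ Finset.range N₁ := Finset.mem_range.mpr (Nat.lt_succ_self _)
    exact ⟨(P.natDegree, (P.coeff P.natDegree).natDegree),
      Finset.mem_product.mpr ⟨hi, Finset.mem_range.mpr (hdeg _ hi)⟩, hlc'⟩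
  have hsum : ∑ m ∈ Finset.range N₁ ×ˢ Finset.range N₂,
      cst ((P.coeff m.1).coeff m.2) * (x ^ m.2 * f ^ m.1) = 0 := by
    rw [Finset.sum_product]
    rw [Polynomial.eval₂_eq_sum_range] at hPf
    rw [← hPf]
    refine Finset.sum_congr rfl fun i hi => ?_
    rw [Polynomial.coe_eval₂RingHom, Polynomial.eval₂_eq_sum_range' cst (hdeg i hi),
      Finset.sum_mul]
    refine Finset.sum_congr rfl fun k _ => ?_
    ring
  obtain ⟨d, hd1, hd2⟩ := exists_reduced_relation (A := A) (ι := ι) cst hcst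
    (Finset.range N₁ ×ˢ Finset.range N₂) (fun m : ℕ × ℕ => (P.coeff m.1).coeff m.2)
    (fun m : ℕ × ℕ => x ^ m.2 * f ^ m.1) (fun m : ℕ × ℕ => xb ^ m.2 * a ^ m.1) hg hc hsum
  exact ⟨N₁, N₂, d, hd1, hd2⟩

end Normalise

/-! ### Algebraicity of the reduction -/

section Alg

variable {κ : Type*} [Field κ]

/-- A Laurent series of nonzero order is transcendental over the coefficient field
(polynomial form). -/
theorem sum_C_mul_pow_ne_zero (xb : LaurentSeries κ) (hord : xb.order ≠ 0) (N : ℕ) (d : ℕ → κ)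
    (hd : ∃ k < N, d k ≠ 0) : ∑ k ∈ Finset.range N, HahnSeries.C (d k) * xb ^ k ≠ 0 := by
  classical
  have hxb : xb ≠ 0 := by
    rintro rfl
    exact hord HahnSeries.order_zero
  set v := HahnSeries.addVal ℤ κ with hv
  have hvx : v xb = ((xb.order : ℤ) : WithTop ℤ) := HahnSeries.addVal_apply_of_ne hxb
  have hvC : ∀ c : κ, c ≠ 0 → v (HahnSeries.C c) = ((0 : ℤ) : WithTop ℤ) := by
    intro c hc
    have h1 : (HahnSeries.C c : LaurentSeries κ) ≠ 0 := by
      rw [HahnSeries.C_apply]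
      exact HahnSeries.single_ne_zero hc
    rw [hv, HahnSeries.addVal_apply_of_ne h1, HahnSeries.C_apply, HahnSeries.order_single hc]
  have hvt : ∀ k, d k ≠ 0 → v (HahnSeries.C (d k) * xb ^ k) = (((k : ℤ) * xb.order : ℤ) : WithTop ℤ) := by
    intro k hk
    rw [AddValuation.map_mul, AddValuation.map_pow, hvC _ hk, hvx, ← WithTop.coe_nsmul,
      ← WithTop.coe_add, zero_add, nsmul_eq_mul]
  have hsplit : ∑ k ∈ Finset.range N, HahnSeries.C (d k) * xb ^ k =
      ∑ k ∈ (Finset.range N).filter (fun k => d k ≠ 0), HahnSeries.C (d k) * xb ^ k := by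
    rw [Finset.sum_filter]
    refine Finset.sum_congr rfl fun k _ => ?_
    by_cases hk : d k = 0
    · simp [hk]
    · simp [hk]
  rw [hsplit]
  obtain ⟨k₀, hk₀N, hk₀⟩ := hd
  refine Fermat.Agent.S18.H264.sum_ne_zero_of_val_injOn v _ _
    ⟨k₀, Finset.mem_filter.mpr ⟨Finset.mem_range.mpr hk₀N, hk₀⟩⟩ ?_ ?_
  · intro k hk
    have hk' := (Finset.mem_filter.mp hk).2
    refine mul_ne_zero ?_ (pow_ne_zero _ hxb)
    rw [HahnSeries.C_apply]
    exact HahnSeries.single_ne_zero hk'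
  · intro i hi j hj hij
    rw [hvt i (Finset.mem_filter.mp hi).2, hvt j (Finset.mem_filter.mp hj).2] at hij
    have h1 : (i : ℤ) * xb.order = (j : ℤ) * xb.order := WithTop.coe_injective hij
    exact Nat.cast_injective (mul_right_cancel₀ hord h1)

variable (ℓ : ℕ) [hℓ : Fact ℓ.Prime] [Algebra (ZMod ℓ) κ] [Algebra.IsAlgebraic (ZMod ℓ) κ]

/-- A nontrivial relation `∑ d(i,k) x̄^k ā^i = 0` with coefficients in `κ` (algebraic over
`𝔽_ℓ`) and `ord x̄ ≠ 0` makes `ā` algebraic over `𝔽_ℓ(x̄)`. -/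
theorem isAlgebraic_of_biRel (xb a : LaurentSeries κ) (hord : xb.order ≠ 0) (N₁ N₂ : ℕ)
    (d : ℕ × ℕ → κ) (hd : ∃ m ∈ Finset.range N₁ ×ˢ Finset.range N₂, d m = 1)
    (hsum : ∑ m ∈ Finset.range N₁ ×ˢ Finset.range N₂,
      HahnSeries.C (d m) * (xb ^ m.2 * a ^ m.1) = 0) :
    IsAlgebraic (IntermediateField.adjoin (ZMod ℓ) {xb}) a := by
  classical
  set J := IntermediateField.adjoin (ZMod ℓ) {xb} with hJ
  set Ja := algebraicClosure J (LaurentSeries κ) with hJa
  -- constants and `x̄` lie in `Ja`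
  have hC : ∀ c : κ, (HahnSeries.C c : LaurentSeries κ) ∈ Ja := by
    intro c
    rw [hJa, mem_algebraicClosure_iff]
    obtain ⟨p, hp0, hpc⟩ := (Algebra.IsAlgebraic.isAlgebraic c : IsAlgebraic (ZMod ℓ) c)
    refine ⟨p.map (algebraMap (ZMod ℓ) J),
      (Polynomial.map_ne_zero_iff (algebraMap (ZMod ℓ) J).injective).mpr hp0, ?_⟩
    rw [aeval_def, Polynomial.eval₂_map]
    have hc : (algebraMap J (LaurentSeries κ)).comp (algebraMap (ZMod ℓ) J) =
        (HahnSeries.C : κ →+* LaurentSeries κ).comp (algebraMap (ZMod ℓ) κ) :=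
      RingHom.ext_zmod _ _
    rw [hc, ← Polynomial.hom_eval₂, ← aeval_def, hpc, map_zero]
  have hxJa : xb ∈ Ja := by
    rw [hJa, mem_algebraicClosure_iff]
    exact isAlgebraic_algebraMap (⟨xb, IntermediateField.mem_adjoin_simple_self _ _⟩ : J)
  -- the coefficients `q i = ∑_k d(i,k) x̄^k`
  set q : ℕ → LaurentSeries κ := fun i => ∑ k ∈ Finset.range N₂, HahnSeries.C (d (i, k)) * xb ^ k
    with hq
  have hqJa : ∀ i, q i ∈ Ja := fun i =>
    sum_mem fun k _ => mul_mem (hC _) (pow_mem hxJa k)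
  have hrel : ∑ i ∈ Finset.range N₁, q i * a ^ i = 0 := by
    rw [← hsum, Finset.sum_product]
    refine Finset.sum_congr rfl fun i _ => ?_
    rw [hq, Finset.sum_mul]
    refine Finset.sum_congr rfl fun k _ => ?_
    ring
  obtain ⟨m₁, hm₁, hdm₁⟩ := hd
  obtain ⟨hi₁, hk₁⟩ := Finset.mem_product.mp hm₁
  have hq₁ : q m₁.1 ≠ 0 := by
    apply sum_C_mul_pow_ne_zero xb hord N₂ (fun k => d (m₁.1, k))
    exact ⟨m₁.2, Finset.mem_range.mp hk₁, by rw [Prod.mk.eta, hdm₁]; exact one_ne_zero⟩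
  -- the polynomial over `Ja`
  set Q : Polynomial Ja := ∑ i ∈ Finset.range N₁, Polynomial.C (⟨q i, hqJa i⟩ : Ja) * Polynomial.X ^ i
    with hQ
  have hQcoeff : Q.coeff m₁.1 = ⟨q m₁.1, hqJa m₁.1⟩ := by
    rw [hQ, Polynomial.finsetSum_coeff]
    simp only [Polynomial.coeff_C_mul, Polynomial.coeff_X_pow]
    rw [Finset.sum_eq_single m₁.1]
    · simp
    · intro i _ hi
      rw [if_neg (fun h => hi h.symm), mul_zero]
    · intro h
      exact absurd hi₁ h
  have hQ0 : Q ≠ 0 := by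
    intro h
    apply hq₁
    have := hQcoeff
    rw [h, Polynomial.coeff_zero] at this
    exact (congrArg Subtype.val this).symm
  have hQa : Polynomial.aeval a Q = 0 := by
    rw [hQ, map_sum, ← hrel]
    refine Finset.sum_congr rfl fun i _ => ?_
    rw [map_mul, Polynomial.aeval_C, map_pow, Polynomial.aeval_X]
    rfl
  have h1 : IsAlgebraic Ja a := ⟨Q, hQ0, hQa⟩
  exact IsAlgebraic.restrictScalars J h1

end Alg

/-! ### Clearing denominators -/

section Clear

variable {K : Type*} [Field K] {Ω : Type*} [Field Ω]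

/-- An element algebraic over the subfield generated by constants and `x` satisfies a nontrivial
bivariate polynomial relation `P(x, f) = 0`, `P ∈ K[X][Y]`. -/
theorem exists_biPoly_of_isAlgebraic (cst : K →+* Ω) (Ec : Subfield Ω)
    (hEc : ∀ e ∈ Ec, ∃ c : K, cst c = e) (x f : Ω)
    (hf : IsAlgebraic (Subfield.closure ((Ec : Set Ω) ∪ {x})) f) :
    ∃ P : Polynomial (Polynomial K), P ≠ 0 ∧
      P.eval₂ (Polynomial.eval₂RingHom cst x) f = 0 := by
  classical
  set φ : Polynomial K →+* Ω := Polynomial.eval₂RingHom cst x with hφ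
  have hB : ∀ y : Ω, ∃ u v : Polynomial K, y ∈ Subfield.closure ((Ec : Set Ω) ∪ {x}) →
      φ v ≠ 0 ∧ y * φ v = φ u := by
    intro y
    by_cases hy : y ∈ Subfield.closure ((Ec : Set Ω) ∪ {x})
    · have hsub : Subring.closure ((Ec : Set Ω) ∪ {x}) ≤ φ.range := by
        rw [Subring.closure_le]
        rintro z (hz | hz)
        · obtain ⟨c, rfl⟩ := hEc z hz
          exact ⟨Polynomial.C c, by rw [hφ, Polynomial.coe_eval₂RingHom, Polynomial.eval₂_C]⟩
        · rw [Set.mem_singleton_iff] at hz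
          subst hz
          exact ⟨Polynomial.X, by rw [hφ, Polynomial.coe_eval₂RingHom, Polynomial.eval₂_X]⟩
      obtain ⟨u', hu', v', hv', rfl⟩ := Subfield.mem_closure_iff.mp hy
      obtain ⟨u, rfl⟩ := hsub hu'
      obtain ⟨v, rfl⟩ := hsub hv'
      by_cases hv0 : φ v = 0
      · refine ⟨0, 1, fun _ => ⟨?_, ?_⟩⟩
        · rw [map_one]; exact one_ne_zero
        · rw [hv0, div_zero, zero_mul, map_zero]
      · exact ⟨u, v, fun _ => ⟨hv0, div_mul_cancel₀ _ hv0⟩⟩
    · exact ⟨0, 1, fun h => absurd h hy⟩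
  choose u v huv using hB
  obtain ⟨p, hp0, hpf⟩ := hf
  set n := p.natDegree + 1 with hn
  have hmem : ∀ i, ((p.coeff i : Subfield.closure ((Ec : Set Ω) ∪ {x})) : Ω) ∈
      Subfield.closure ((Ec : Set Ω) ∪ {x}) := fun i => (p.coeff i).2
  set D : Polynomial K := ∏ j ∈ Finset.range n, v (p.coeff j : Ω) with hD
  have hD0 : φ D ≠ 0 := by
    rw [hD, map_prod]
    exact Finset.prod_ne_zero_iff.mpr fun j _ => (huv _ (hmem j)).1
  set Q : ℕ → Polynomial K := fun i =>
    u (p.coeff i : Ω) * ∏ j ∈ (Finset.range n).erase i, v (p.coeff j : Ω) with hQ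
  have hQφ : ∀ i ∈ Finset.range n, φ (Q i) = (p.coeff i : Ω) * φ D := by
    intro i hi
    rw [hQ, hD, map_mul, ← (huv _ (hmem i)).2, mul_assoc, ← map_mul,
      Finset.mul_prod_erase (Finset.range n) (fun j => v (p.coeff j : Ω)) hi]
  set P : Polynomial (Polynomial K) :=
    ∑ i ∈ Finset.range n, Polynomial.C (Q i) * Polynomial.X ^ i with hP
  have hPcoeff : P.coeff p.natDegree = Q p.natDegree := by
    rw [hP, Polynomial.finsetSum_coeff]
    simp only [Polynomial.coeff_C_mul, Polynomial.coeff_X_pow]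
    rw [Finset.sum_eq_single p.natDegree]
    · simp
    · intro i _ hi
      rw [if_neg (fun h => hi h.symm), mul_zero]
    · intro h
      exact absurd (Finset.mem_range.mpr (Nat.lt_succ_self _)) h
  refine ⟨P, ?_, ?_⟩
  · intro h
    have h1 : Q p.natDegree = 0 := by rw [← hPcoeff, h, Polynomial.coeff_zero]
    have h2 := hQφ p.natDegree (Finset.mem_range.mpr (Nat.lt_succ_self _))
    rw [h1, map_zero] at h2
    rcases mul_eq_zero.mp h2.symm with h3 | h3
    · apply hp0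
      rw [← Polynomial.leadingCoeff_eq_zero, Polynomial.leadingCoeff]
      exact Subtype.ext h3
    · exact hD0 h3
  · rw [hP, Polynomial.eval₂_finsetSum]
    have h1 : ∀ i ∈ Finset.range n,
        (Polynomial.C (Q i) * Polynomial.X ^ i).eval₂ φ f = φ D * ((p.coeff i : Ω) * f ^ i) := by
      intro i hi
      rw [Polynomial.eval₂_mul, Polynomial.eval₂_C, Polynomial.eval₂_pow, Polynomial.eval₂_X,
        hQφ i hi]
      ring
    rw [Finset.sum_congr rfl h1, ← Finset.mul_sum]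
    have h2 : ∑ i ∈ Finset.range n, (p.coeff i : Ω) * f ^ i = Polynomial.aeval f p := by
      rw [Polynomial.aeval_def, Polynomial.eval₂_eq_sum_range]
      rfl
    rw [h2, hpf, mul_zero]

/-- A subfield `F` which is a finitely generated module over a subfield `k₀ ≤ F` is algebraic
over `k₀`. -/
theorem isAlgebraic_of_span_finite (k₀ F : Subfield Ω) (hk : k₀ ≤ F)
    (hfin : ∃ s : Finset Ω, (s : Set Ω) ⊆ F ∧ ∀ f ∈ F, f ∈ Submodule.span k₀ (s : Set Ω))
    {f : Ω} (hf : f ∈ F) : IsAlgebraic k₀ f := by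
  obtain ⟨s, hsF, hspan⟩ := hfin
  let S : Subalgebra k₀ Ω :=
    { F.toSubring.toSubsemiring with
      algebraMap_mem' := fun r => hk r.2 }
  have hS : ∀ y, y ∈ S ↔ y ∈ F := fun y => Iff.rfl
  have hFG : S.toSubmodule.FG := by
    refine ⟨s, le_antisymm ?_ ?_⟩
    · rw [Submodule.span_le]
      intro y hy
      exact (hS y).mpr (hsF hy)
    · intro y hy
      exact hspan y ((hS y).mp hy)
  exact (IsIntegral.of_mem_of_fg S hFG f ((hS f).mpr hf)).isAlgebraic

end Clear

/-! ### The residue field of a valuation ring of an algebraic extension of `ℚ` -/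

section ResAlg

variable {K : Type*} [Field K] [Algebra ℚ K] [Algebra.IsAlgebraic ℚ K] (A : ValuationSubring K)
  (ℓ : ℕ) [hℓ : Fact ℓ.Prime] [Algebra (ZMod ℓ) (IsLocalRing.ResidueField A)]

/-- The residue field of a valuation ring of an algebraic extension of `ℚ`, of residue
characteristic `ℓ`, is algebraic over `𝔽_ℓ` (generic form of `S18.H264.isAlgebraic_residue_zmod`). -/
theorem residue_isAlgebraic_zmod : Algebra.IsAlgebraic (ZMod ℓ) (IsLocalRing.ResidueField A) := by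
  refine ⟨fun c => ?_⟩
  obtain ⟨a, rfl⟩ := IsLocalRing.residue_surjective c
  have halgQ : IsAlgebraic ℚ (a : K) := Algebra.IsAlgebraic.isAlgebraic _
  have hchar0 : CharZero K := algebraRat.charZero K
  have halgZ : IsAlgebraic ℤ (a : K) := (IsFractionRing.isAlgebraic_iff ℤ ℚ K).mpr halgQ
  obtain ⟨p, hp0, hpa⟩ := halgZ
  have hq0 : p.primPart ≠ 0 := primPart_ne_zero p
  have hqa : aeval (a : K) p.primPart = 0 := aeval_primPart_eq_zero hp0 hpa
  have hqA : Polynomial.eval₂ (Int.castRingHom A) a p.primPart = 0 := by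
    apply Subtype.ext
    have h := Polynomial.hom_eval₂ p.primPart (Int.castRingHom A) A.subtype a
    rw [ZeroMemClass.coe_zero, ← hqa, aeval_def]
    have hc : (A.subtype).comp (Int.castRingHom A) = algebraMap ℤ K := RingHom.ext_int _ _
    rw [← hc]
    exact h
  refine ⟨p.primPart.map (Int.castRingHom (ZMod ℓ)), ?_, ?_⟩
  · intro h0
    have hdvd : Polynomial.C (ℓ : ℤ) ∣ p.primPart := by
      rw [C_dvd_iff_dvd_coeff]
      intro i
      have := congrArg (fun r => r.coeff i) h0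
      simp only [Polynomial.coeff_map, Polynomial.coeff_zero, eq_intCast] at this
      exact (ZMod.intCast_zmod_eq_zero_iff_dvd _ _).mp this
    have hu := (isPrimitive_iff_isUnit_of_C_dvd.mp (isPrimitive_primPart p)) _ hdvd
    have := Int.isUnit_iff.mp hu
    have h2 := hℓ.out.two_le
    omega
  · rw [aeval_def, Polynomial.eval₂_map]
    have hc : (algebraMap (ZMod ℓ) (IsLocalRing.ResidueField A)).comp
        (Int.castRingHom (ZMod ℓ)) = (IsLocalRing.residue A).comp (Int.castRingHom A) :=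
      RingHom.ext_int _ _
    rw [hc, ← Polynomial.hom_eval₂, hqA, map_zero]

end ResAlg

/-! ### The field `separable` -/

section Main

open Fermat.Agent.S18.Alg Fermat.Agent.S18.Mod.H216

variable {K : Type*} [Field K] {A : ValuationSubring K} {E : Subfield K}
variable {Ω : Type*} [Field Ω] {ι : Ω →+* LaurentSeries K} {F : Subfield Ω}
variable (cst : K →+* Ω) (hcst : ∀ c : K, ι (cst c) = HahnSeries.C c)
  (hEF : ∀ c ∈ E, cst c ∈ F)

section WithAlg

variable (ℓ : ℕ) [hℓ : Fact ℓ.Prime] [Algebra (ZMod ℓ) (IsLocalRing.ResidueField A)]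
  [Algebra.IsAlgebraic (ZMod ℓ) (IsLocalRing.ResidueField A)]

include hcst in
/-- **Algebraicity of reductions.**  If `f` satisfies a nontrivial relation `P(x, f) = 0`,
`P ∈ K[X][Y]`, then every reduction `f̄` of `f` is algebraic over `𝔽_ℓ(x̄)`, as soon as
`ord x̄ ≠ 0`.  (Gauss normalisation; no `CoreData`, no degree count.) -/
theorem isAlgebraic_red_of_biRel {x f : Ω} {xb a : LaurentSeries (IsLocalRing.ResidueField A)}
    (hx : (x, xb) ∈ sepRel A E ι F) (hf : (f, a) ∈ sepRel A E ι F) (hord : xb.order ≠ 0)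
    (P : Polynomial (Polynomial K)) (hP : P ≠ 0)
    (hPf : P.eval₂ (Polynomial.eval₂RingHom cst x) f = 0) :
    IsAlgebraic (IntermediateField.adjoin (ZMod ℓ) {xb}) a := by
  obtain ⟨N₁, N₂, d, hd, hsum⟩ := exists_reduced_biRel cst hcst
    (sepRel_mono le_top le_top hx) (sepRel_mono le_top le_top hf) P hP hPf
  exact isAlgebraic_of_biRel ℓ xb a hord N₁ N₂ d hd hsum

include hcst hEF in
/-- **The field `separable` of `Alg.GoodModel` for the Gauss valuation ring `VRing A E ι F`.**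
`w₀ ∈ E` generates the maximal ideal of `A ∩ E` (`hgen`, e.g. `H248.IsUnifG.gen`), the coordinate
`x` is an integral series `X₀` with `ℓ ∤ ord (X̄₀)`, and every element of `F` satisfies a
nontrivial bivariate relation over `K(x)`.  The polynomial has coefficients in `ℤ[x]`, so `R` is
an arbitrary subring. -/
theorem separable_VRing {w₀ : K} (hwE : w₀ ∈ E) (hw0 : w₀ ≠ 0)
    (hgen : ∀ c : K, c ∈ A → c ∈ E → c⁻¹ ∉ A → c * w₀⁻¹ ∈ A)
    {x : Ω} {X₀ : LaurentSeries A} (hX₀ : IsInt A E ι F X₀) (hx : ι x = ivInc A X₀)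
    (hn : ¬ (ℓ : ℤ) ∣ (ivRed A X₀).order)
    (halg : ∀ f ∈ F, ∃ P : Polynomial (Polynomial K), P ≠ 0 ∧
      P.eval₂ (Polynomial.eval₂RingHom cst x) f = 0)
    (R : Subring Ω) :
    ∀ f ∈ VRing A E ι F, ∃ P : Polynomial Ω,
      (∀ i, P.coeff i ∈ Subring.closure ((R : Set Ω) ∪ {x})) ∧
      P.eval f * (cst w₀)⁻¹ ∈ VRing A E ι F ∧ (derivative P).eval f ≠ 0 ∧
      ((derivative P).eval f)⁻¹ ∈ VRing A E ι F := by
  intro f hf
  obtain ⟨a, ha⟩ := exists_sepRel_of_mem_VRing hf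
  obtain ⟨P, hP, hPf⟩ := halg f (VRing_le A E ι F hf)
  have hord : (ivRed A X₀).order ≠ 0 := fun h => hn (by rw [h]; exact dvd_zero _)
  have hxb0 : ivRed A X₀ ≠ 0 := by
    intro h
    exact hord (by rw [h]; exact HahnSeries.order_zero)
  have hxrel := sepRel_of_isInt hX₀ hx
  have halg' := isAlgebraic_red_of_biRel cst hcst ℓ hxrel ha hord P hP hPf
  have hv : HahnSeries.addVal ℤ (IsLocalRing.ResidueField A) (ivRed A X₀) =
      (((ivRed A X₀).order : ℤ) : WithTop ℤ) := HahnSeries.addVal_apply_of_ne hxb0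
  exact Fermat.Agent.S18.H264.exists_poly_of_graph_sep ℓ (HahnSeries.addVal ℤ _)
    (sepRel A E ι F) (VRing A E ι F) R (cst w₀) x f (ivRed A X₀) a hxrel ha
    (fun g hg => sepRel_ker cst hcst hEF hwE hw0 hgen hg)
    (fun g b hg hb => sepRel_unit hg hb) _ hv hn halg'

include hcst hEF in
/-- The same with the uniformiser given as an element `w` of `RcG A E cst` satisfying the
fields `w_ne_zero`, `w_gen` of `S18.Mod.H216.PartR`. -/
theorem separable_VRing_of_mem_RcG {w : Ω} (hw : w ∈ RcG A E cst) (hw0 : w ≠ 0)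
    (hgen : ∀ r ∈ RcG A E cst, r⁻¹ ∉ RcG A E cst → r * w⁻¹ ∈ RcG A E cst)
    {x : Ω} {X₀ : LaurentSeries A} (hX₀ : IsInt A E ι F X₀) (hx : ι x = ivInc A X₀)
    (hn : ¬ (ℓ : ℤ) ∣ (ivRed A X₀).order)
    (halg : ∀ f ∈ F, ∃ P : Polynomial (Polynomial K), P ≠ 0 ∧
      P.eval₂ (Polynomial.eval₂RingHom cst x) f = 0)
    (R : Subring Ω) :
    ∀ f ∈ VRing A E ι F, ∃ P : Polynomial Ω,
      (∀ i, P.coeff i ∈ Subring.closure ((R : Set Ω) ∪ {x})) ∧
      P.eval f * w⁻¹ ∈ VRing A E ι F ∧ (derivative P).eval f ≠ 0 ∧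
      ((derivative P).eval f)⁻¹ ∈ VRing A E ι F := by
  obtain ⟨w₀, hw₀A, hw₀E, rfl⟩ := (mem_RcG_iff cst).mp hw
  have hw₀0 : w₀ ≠ 0 := by
    rintro rfl
    exact hw0 (map_zero _)
  have hgen' : ∀ c : K, c ∈ A → c ∈ E → c⁻¹ ∉ A → c * w₀⁻¹ ∈ A := by
    intro c hcA hcE hinv
    have h1 : cst c ∈ RcG A E cst := (mem_RcG_iff cst).mpr ⟨c, hcA, hcE, rfl⟩
    have h2 : (cst c)⁻¹ ∉ RcG A E cst := by
      intro h
      obtain ⟨b, hbA, -, hb⟩ := (mem_RcG_iff cst).mp h
      apply hinv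
      have : b = c⁻¹ := cst.injective (by rw [hb, map_inv₀])
      rw [← this]
      exact hbA
    obtain ⟨b, hbA, -, hb⟩ := (mem_RcG_iff cst).mp (hgen _ h1 h2)
    have : b = c * w₀⁻¹ := cst.injective (by rw [hb, map_mul, map_inv₀])
    rw [← this]
    exact hbA
  exact separable_VRing cst hcst hEF ℓ hw₀E hw₀0 hgen' hX₀ hx hn halg R

end WithAlg

include hcst hEF in
/-- **G-SEP for the Gauss valuation ring `VRing A E ι F`, in the shape of
`S18.Mod.H216.PartSep`**, from the fields `w_mem w_ne_zero w_gen` of `PartR` and the field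
`finite` of `PartFld`.  `K` is algebraic over `ℚ` (`K = Q̄`), the residue field of `A` has
characteristic `ℓ`, the coordinate `x` is an integral series with `ℓ ∤ ord (x̄)`
(`x = j`: order `-1` in `q`, order `-M` in `X = q^{1/M}`, `ℓ ∤ M`). -/
theorem partSep_VRing_of_finite [Algebra ℚ K] [Algebra.IsAlgebraic ℚ K] (ℓ : ℕ)
    [hℓ : Fact ℓ.Prime] [CharP (IsLocalRing.ResidueField A) ℓ]
    {w : Ω} (hw : w ∈ RcG A E cst) (hw0 : w ≠ 0)
    (hgen : ∀ r ∈ RcG A E cst, r⁻¹ ∉ RcG A E cst → r * w⁻¹ ∈ RcG A E cst)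
    {x : Ω} {X₀ : LaurentSeries A} (hX₀ : IsInt A E ι F X₀) (hx : ι x = ivInc A X₀)
    (hn : ¬ (ℓ : ℤ) ∣ (ivRed A X₀).order)
    (hfin : ∃ s : Finset Ω, (s : Set Ω) ⊆ F ∧
      ∀ f ∈ F, f ∈ Submodule.span (ratField (EcG E cst) x) (s : Set Ω)) :
    PartSep (RcG A E cst) (VRing A E ι F) w x := by
  let _ : Algebra (ZMod ℓ) (IsLocalRing.ResidueField A) := ZMod.algebra _ ℓ
  have := residue_isAlgebraic_zmod A ℓ
  have hxF : x ∈ F := by
    obtain ⟨f, hf, hfU⟩ := hX₀.2
    have hxf : x = f := ι.injective (by rw [hx, hfU])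
    exact hxf ▸ hf
  have hk : ratField (EcG E cst) x ≤ F := by
    unfold ratField
    rw [Subfield.closure_le]
    rintro z (hz | hz)
    · obtain ⟨c, hc, rfl⟩ := (mem_EcG_iff cst).mp hz
      exact hEF c hc
    · rw [Set.mem_singleton_iff] at hz
      rw [hz]
      exact hxF
  have halg : ∀ f ∈ F, ∃ P : Polynomial (Polynomial K), P ≠ 0 ∧
      P.eval₂ (Polynomial.eval₂RingHom cst x) f = 0 := by
    intro f hf
    have h1 : IsAlgebraic (ratField (EcG E cst) x) f :=
      isAlgebraic_of_span_finite _ F hk hfin hf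
    exact exists_biPoly_of_isAlgebraic cst (EcG E cst)
      (fun e he => by
        obtain ⟨c, -, hc⟩ := (mem_EcG_iff cst).mp he
        exact ⟨c, hc⟩) x f h1
  exact ⟨separable_VRing_of_mem_RcG cst hcst hEF ℓ hw hw0 hgen hX₀ hx hn halg _⟩

end Main

end Fermat.Agent.S48.H128
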