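import Fermat.Agent.S48.H128.SepGen
import Fermat.Agent.S48.H908.CoreG
import Fermat.Agent.S18.H264.SepModular

/-!
# S48 / RES (Tower A1) / A1-RED, leaf R4e = SEP1 in the Red vocabulary of record (helper128)

`S48/H908/CoreG.lean` (helper908) defines, for an arbitrary subfield `F₀ ⊆ ℚ((q))`, the concrete
objects `OmG F₀`, `EcG F₀ E`, `RcG F₀ A E`, `FcG F₀ E`, `VcSetG F₀ A E` (same shape as
`S18/Mod/Defs.lean`).  This file instantiates the generic `H128.partSep_VRing_of_finite`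
(`S48/H128/SepGen.lean`) at these objects:

* `partSep_VcSetG`      : `PartSep (RcG F₀ A E) V w x` for any subring `V` with carrier
                          `VcSetG F₀ A E`, any coordinate `x` which is an integral series `X₀`
                          with `ℓ ∤ ord (X̄₀)`;
* `partSep_VcSetG_int`  : the same for `x` given by a series `X = q⁻¹ + …` over `ℤ`
                          (the shape of `S18.Mod.IsCoordinate`: `t₂`, `t₃`);
* `partSep_VcSetG_j`    : the same for `x = j` (any `F₀ ∋ j`).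

Inputs: `A.LiesOverPrime ℓ`, the fields `w_mem w_ne_zero w_gen` of `PartR` and the field `finite`
of `PartFld`.  No `CoreData`, no Igusa, no degree count.
-/

set_option autoImplicit false

noncomputable section

namespace Fermat.Agent.S48.H128

open ModularCurve AlgebraicCurve HahnSeries
open Fermat.Agent.S18 (Qb)
open Fermat.Agent.S18.Alg Fermat.Agent.S18.Mod.H216
open Fermat.Agent.S48.H908.Core1

variable (F₀ : IntermediateField ℚ (LaurentSeries ℚ)) (A : ValuationSubring Qb)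
  (E : IntermediateField ℚ Qb)

/-- The coercion `Ω = ℚ̄·F₀ → ℚ̄((q))` as a ring homomorphism. -/
def omValG : OmG F₀ →+* LaurentSeries Qb := (laurentBaseChange Qb F₀).val.toRingHom

@[simp] theorem omValG_apply (f : OmG F₀) : omValG F₀ f = (f : LaurentSeries Qb) := rfl

theorem omValG_algebraMap (c : Qb) :
    omValG F₀ (algebraMap Qb (OmG F₀) c) = HahnSeries.C c := by
  rw [omValG_apply]
  show algebraMap Qb (LaurentSeries Qb) c = _
  rw [algebraMap_laurentSeries_eq_single, HahnSeries.C_apply]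

theorem isIntEG_iff_isInt (U : LaurentSeries A) :
    IsIntEG F₀ A E U ↔ H248.IsInt A E.toSubfield (omValG F₀) (FcG F₀ E) U := Iff.rfl

theorem VcSetG_eq_VSet :
    VcSetG F₀ A E = H248.VSet A E.toSubfield (omValG F₀) (FcG F₀ E) := rfl

theorem RcG_eq_RcG248 :
    RcG F₀ A E = H248.RcG A E.toSubfield (algebraMap Qb (OmG F₀)) := rfl

theorem EcG_eq_EcG248 :
    EcG F₀ E = H248.EcG E.toSubfield (algebraMap Qb (OmG F₀)) := rfl

/-- The residue field of a valuation subring over the prime `ℓ` has characteristic `ℓ`. -/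
theorem charP_residue_of_liesOver {ℓ : ℕ} [hℓ : Fact ℓ.Prime] (hA : A.LiesOverPrime ℓ) :
    CharP (IsLocalRing.ResidueField A) ℓ := by
  have hℓm : ((ℓ : ℕ) : A) ∈ IsLocalRing.maximalIdeal A := by
    obtain ⟨ha, hm⟩ := (ValuationSubring.mem_nonunits_iff_exists_mem_maximalIdeal).mp hA
    have : (⟨(ℓ : Qb), ha⟩ : A) = ((ℓ : ℕ) : A) := by
      apply Subtype.ext; simp
    rwa [this] at hm
  have h0 : ((ℓ : ℕ) : IsLocalRing.ResidueField A) = 0 := by
    have := (IsLocalRing.residue_eq_zero_iff ((ℓ : ℕ) : A)).mpr hℓm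
    rwa [map_natCast] at this
  exact (CharP.charP_iff_prime_eq_zero hℓ.out).mpr h0

variable {F₀ A E}

/-- **SEP1 in the Red vocabulary** (`S48/H908/CoreG.lean`): the field `separable` of
`S18.Alg.GoodModel` for the concrete model `(EcG F₀ E, FcG F₀ E, RcG F₀ A E, V, w)`. -/
theorem partSep_VcSetG {ℓ : ℕ} [hℓ : Fact ℓ.Prime] (hA : A.LiesOverPrime ℓ)
    (V : Subring (OmG F₀)) (hV : (V : Set (OmG F₀)) = VcSetG F₀ A E)
    {w : OmG F₀} (hw : w ∈ RcG F₀ A E) (hw0 : w ≠ 0)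
    (hgen : ∀ r ∈ RcG F₀ A E, r⁻¹ ∉ RcG F₀ A E → r * w⁻¹ ∈ RcG F₀ A E)
    {x : OmG F₀} {X₀ : LaurentSeries A} (hX₀ : IsIntEG F₀ A E X₀)
    (hx : (x : LaurentSeries Qb) = coeffMap A.subtype X₀)
    (hn : ¬ (ℓ : ℤ) ∣ (coeffMap (IsLocalRing.residue A) X₀).order)
    (hfin : ∃ s : Finset (OmG F₀), (s : Set (OmG F₀)) ⊆ FcG F₀ E ∧
      ∀ f ∈ FcG F₀ E, f ∈ Submodule.span (ratField (EcG F₀ E) x) (s : Set (OmG F₀))) :
    PartSep (RcG F₀ A E) V w x := by
  have hVeq : V = H248.VRing A E.toSubfield (omValG F₀) (FcG F₀ E) :=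
    SetLike.coe_injective hV
  have hchar : CharP (IsLocalRing.ResidueField A) ℓ := charP_residue_of_liesOver A hA
  have halgQ : Algebra.IsAlgebraic ℚ Qb := AlgebraicClosure.isAlgebraic ℚ
  rw [hVeq]
  exact partSep_VRing_of_finite (K := Qb) (A := A) (E := E.toSubfield) (ι := omValG F₀)
    (F := FcG F₀ E) (algebraMap Qb (OmG F₀)) (omValG_algebraMap F₀)
    (fun c hc => algebraMap_mem_FcG hc) ℓ hw hw0 hgen hX₀ hx hn hfin

/-- A series `X = q⁻¹ + …` over `ℤ` reduces to a series of order `-1`. -/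
theorem order_coeffMap_int {κ : Type*} [Field κ] (X : LaurentSeries ℤ) (hX1 : X.coeff (-1) = 1)
    (hXlt : ∀ k : ℤ, k < -1 → X.coeff k = 0) :
    (coeffMap (Int.castRingHom κ) X).order = -1 := by
  have hc1 : (coeffMap (Int.castRingHom κ) X).coeff (-1) = 1 := by
    rw [coeffMap_coeff, hX1, map_one]
  have hne : coeffMap (Int.castRingHom κ) X ≠ 0 := by
    intro h
    rw [h, HahnSeries.coeff_zero] at hc1
    exact zero_ne_one hc1
  apply le_antisymm
  · apply HahnSeries.order_le_of_coeff_ne_zero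
    rw [hc1]
    exact one_ne_zero
  · rw [HahnSeries.le_order_iff_forall hne]
    intro k hk
    rw [coeffMap_coeff, hXlt k hk, map_zero]

/-- **SEP1 for a coordinate given by an integral series `X = q⁻¹ + …` over `ℤ`**
(the shape of `S18.Mod.IsCoordinate`). -/
theorem partSep_VcSetG_int {ℓ : ℕ} [hℓ : Fact ℓ.Prime] (hA : A.LiesOverPrime ℓ)
    (V : Subring (OmG F₀)) (hV : (V : Set (OmG F₀)) = VcSetG F₀ A E)
    {w : OmG F₀} (hw : w ∈ RcG F₀ A E) (hw0 : w ≠ 0)
    (hgen : ∀ r ∈ RcG F₀ A E, r⁻¹ ∉ RcG F₀ A E → r * w⁻¹ ∈ RcG F₀ A E)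
    {x : OmG F₀} (hxF : x ∈ FcG F₀ E) (X : LaurentSeries ℤ) (hX1 : X.coeff (-1) = 1)
    (hXlt : ∀ k : ℤ, k < -1 → X.coeff k = 0)
    (hx : (x : LaurentSeries Qb) = coeffMap (Int.castRingHom Qb) X)
    (hfin : ∃ s : Finset (OmG F₀), (s : Set (OmG F₀)) ⊆ FcG F₀ E ∧
      ∀ f ∈ FcG F₀ E, f ∈ Submodule.span (ratField (EcG F₀ E) x) (s : Set (OmG F₀))) :
    PartSep (RcG F₀ A E) V w x := by
  have hinc : coeffMap A.subtype (coeffMap (Int.castRingHom A) X) =
      coeffMap (Int.castRingHom Qb) X := by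
    rw [coeffMap_coeffMap]
    exact coeffMap_congr (RingHom.ext_int _ _) X
  have hred : coeffMap (IsLocalRing.residue A) (coeffMap (Int.castRingHom A) X) =
      coeffMap (Int.castRingHom (IsLocalRing.ResidueField A)) X := by
    rw [coeffMap_coeffMap]
    exact coeffMap_congr (RingHom.ext_int _ _) X
  have hX₀ : IsIntEG F₀ A E (coeffMap (Int.castRingHom A) X) := by
    refine ⟨fun n => ?_, x, hxF, by rw [hx, hinc]⟩
    rw [coeffMap_coeff]
    show ((Int.castRingHom A (X.coeff n) : A) : Qb) ∈ E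
    have : ((Int.castRingHom A (X.coeff n) : A) : Qb) = ((X.coeff n : ℤ) : Qb) := by
      simp
    rw [this]
    exact intCast_mem E _
  refine partSep_VcSetG hA V hV hw hw0 hgen hX₀ (by rw [hx, hinc]) ?_ hfin
  rw [hred, order_coeffMap_int X hX1 hXlt]
  exact Fermat.Agent.S18.H264.not_prime_dvd_neg_one ℓ hℓ.out

/-- **SEP1 for the coordinate `j`**, for every subfield `F₀ ∋ j` of `ℚ((q))`. -/
theorem partSep_VcSetG_j {ℓ : ℕ} [hℓ : Fact ℓ.Prime] (hA : A.LiesOverPrime ℓ)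
    (V : Subring (OmG F₀)) (hV : (V : Set (OmG F₀)) = VcSetG F₀ A E)
    {w : OmG F₀} (hw : w ∈ RcG F₀ A E) (hw0 : w ≠ 0)
    (hgen : ∀ r ∈ RcG F₀ A E, r⁻¹ ∉ RcG F₀ A E → r * w⁻¹ ∈ RcG F₀ A E)
    {x : OmG F₀} (hxF : x ∈ FcG F₀ E) (hx : (x : LaurentSeries Qb) = coeffEmb Qb jq)
    (hfin : ∃ s : Finset (OmG F₀), (s : Set (OmG F₀)) ⊆ FcG F₀ E ∧
      ∀ f ∈ FcG F₀ E, f ∈ Submodule.span (ratField (EcG F₀ E) x) (s : Set (OmG F₀))) :
    PartSep (RcG F₀ A E) V w x := by
  have hj : coeffEmb Qb jq = coeffMap (Int.castRingHom Qb) (jqModC ℤ) := by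
    rw [← jqModC_rat, coeffEmb, coeffMap_jqModC, coeffMap_jqModC]
  exact partSep_VcSetG_int hA V hV hw hw0 hgen hxF (jqModC ℤ) (coeff_jqModC_neg_one ℤ)
    (fun k hk => coeff_jqModC_of_lt ℤ hk) (by rw [hx, hj]) hfin

end Fermat.Agent.S48.H128
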