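import Fermat.Agent.S48.H128.SepGen
import Fermat.Agent.S48.Red1.Asm

/-!
# S48 / RES (Tower A1) / A1-RED: the leaf `separable` of `Red1.TopLeaves`, VERBATIM (helper128)

Frame of record: `S48/Red1/{Objects,Asm,Core}.lean` (helper588).  The leaves of the assembly at a
number field `E` are the four fields of `Red1.TopLeaves F₀ A E w₀ j`:
`finite`, `separable`, `qep_fin`, `qep_inf`.  This file proves

* `separable_top`            : the field `separable` FROM the field `finite` (any `F₀`, any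
                               subfield `E`, any `j ∈ FcT F₀ E` whose `q`-expansion is `j`);
* `topLeaves_of_finite_qep`  : `TopLeaves` from `finite`, `qep_fin`, `qep_inf`;
* `iotaG_jOm_mem_FcT`, `coe_iotaG_jOm` : the two side conditions for
                               `j = iotaG M F₀ hle (jOm M)`;
* `topLeaves_iotaG`          : `TopLeaves F₀ A E w₀ (iotaG M F₀ hle (jOm M))` from the three
                               remaining fields.

Proof of `separable_top`: `H128.separable_VRing` (`SepGen.lean`): Gauss normalisation of an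
algebraic relation over `Q̄(j)` + `S18/H264` (subfields of `κ((q))` algebraic over `κ(j̄)` are
separable, `ord j̄ = -1`).  No `CoreData`, no Igusa, no degree count.
-/

set_option autoImplicit false

noncomputable section

namespace Fermat.Agent.S48.H128

open ModularCurve AlgebraicCurve HahnSeries Fermat.Agent.S18 Fermat.Agent.S18.Alg
open Fermat.Agent.S18.Mod Fermat.Agent.S48.H248 Fermat.Agent.S48.Red1

variable {F₀ : IntermediateField ℚ (LaurentSeries ℚ)} {A : ValuationSubring Qb}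
  {E : Subfield Qb}

/-- The residue field of a valuation subring of `Q̄` over the prime `ℓ` has characteristic `ℓ`. -/
theorem charP_residue_top128 (A : ValuationSubring Qb) {ℓ : ℕ} [hℓ : Fact ℓ.Prime]
    (hA : A.LiesOverPrime ℓ) : CharP (IsLocalRing.ResidueField A) ℓ := by
  have hℓm : ((ℓ : ℕ) : A) ∈ IsLocalRing.maximalIdeal A := by
    obtain ⟨ha, hm⟩ := (ValuationSubring.mem_nonunits_iff_exists_mem_maximalIdeal).mp hA
    have : (⟨(ℓ : Qb), ha⟩ : A) = ((ℓ : ℕ) : A) := by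
      apply Subtype.ext; simp
    rwa [this] at hm
  have h0 : ((ℓ : ℕ) : IsLocalRing.ResidueField A) = 0 := by
    have := (IsLocalRing.residue_eq_zero_iff ((ℓ : ℕ) : A)).mpr hℓm
    rwa [map_natCast] at this
  exact (CharP.charP_iff_prime_eq_zero hℓ.out).mpr h0

/-- **The leaf `separable` of `Red1.TopLeaves` from the leaf `finite`.** -/
theorem separable_top {ℓ : ℕ} [hℓ : Fact ℓ.Prime] (hA : A.LiesOverPrime ℓ) {w₀ : Qb}
    (hunif : IsUnifG A E w₀) {j : OmG F₀} (hjF : j ∈ FcT F₀ E)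
    (hj : (j : LaurentSeries Qb) = coeffEmb Qb jq)
    (hfin : ∃ s : Finset (OmG F₀), (s : Set (OmG F₀)) ⊆ FcT F₀ E ∧
      ∀ f ∈ FcT F₀ E, f ∈ Submodule.span (ratField (EcG E (cstG F₀)) j) (s : Set (OmG F₀))) :
    ∀ f ∈ VcT F₀ A E, ∃ P : Polynomial (OmG F₀),
      (∀ i, P.coeff i ∈ polyRing (RcG A E (cstG F₀)) j) ∧
      P.eval f * (cstG F₀ w₀)⁻¹ ∈ VcT F₀ A E ∧ (Polynomial.derivative P).eval f ≠ 0 ∧
      ((Polynomial.derivative P).eval f)⁻¹ ∈ VcT F₀ A E := by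
  have hchar : CharP (IsLocalRing.ResidueField A) ℓ := charP_residue_top128 A hA
  let _ : Algebra (ZMod ℓ) (IsLocalRing.ResidueField A) := ZMod.algebra _ ℓ
  have halgQ : Algebra.IsAlgebraic ℚ Qb := AlgebraicClosure.isAlgebraic ℚ
  have hκ : Algebra.IsAlgebraic (ZMod ℓ) (IsLocalRing.ResidueField A) :=
    residue_isAlgebraic_zmod A ℓ
  have hEF : ∀ c ∈ E, cstG F₀ c ∈ FcT F₀ E := fun c hc => cstG_mem_FcT hc
  -- the integral series of `j`
  have hjZ : coeffEmb Qb jq = coeffMap (Int.castRingHom Qb) (jqModC ℤ) := by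
    rw [← jqModC_rat, coeffEmb, coeffMap_jqModC, coeffMap_jqModC]
  have hinc : ivInc A (coeffMap (Int.castRingHom A) (jqModC ℤ)) =
      coeffMap (Int.castRingHom Qb) (jqModC ℤ) := by
    rw [coeffMap_coeffMap]
    exact coeffMap_congr (RingHom.ext_int _ _) _
  have hred : ivRed A (coeffMap (Int.castRingHom A) (jqModC ℤ)) =
      jqModC (IsLocalRing.ResidueField A) := by
    rw [coeffMap_coeffMap, coeffMap_jqModC]
  have hx : exG F₀ j = ivInc A (coeffMap (Int.castRingHom A) (jqModC ℤ)) := by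
    rw [exG_apply, hj, hjZ, hinc]
  have hX₀ : IsInt A E (exG F₀) (FcT F₀ E) (coeffMap (Int.castRingHom A) (jqModC ℤ)) := by
    refine ⟨fun n => ?_, j, hjF, hx⟩
    rw [coeffMap_coeff]
    have : ((Int.castRingHom A ((jqModC ℤ).coeff n) : A) : Qb) =
        (((jqModC ℤ).coeff n : ℤ) : Qb) := by
      simp
    rw [this]
    exact intCast_mem E _
  have hn : ¬ (ℓ : ℤ) ∣ (ivRed A (coeffMap (Int.castRingHom A) (jqModC ℤ))).order := by
    rw [hred, Fermat.Agent.S18.H264.order_jqModC]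
    exact Fermat.Agent.S18.H264.not_prime_dvd_neg_one ℓ hℓ.out
  -- algebraicity over `Q̄(j)` from `finite`
  have hk : ratField (EcG E (cstG F₀)) j ≤ FcT F₀ E := by
    unfold ratField
    rw [Subfield.closure_le]
    rintro z (hz | hz)
    · obtain ⟨c, hc, rfl⟩ := (mem_EcG_iff (cstG F₀)).mp hz
      exact hEF c hc
    · rw [Set.mem_singleton_iff] at hz
      rw [hz]
      exact hjF
  have halg : ∀ f ∈ FcT F₀ E, ∃ P : Polynomial (Polynomial Qb), P ≠ 0 ∧
      P.eval₂ (Polynomial.eval₂RingHom (cstG F₀) j) f = 0 := by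
    intro f hf
    have h1 : IsAlgebraic (ratField (EcG E (cstG F₀)) j) f :=
      isAlgebraic_of_span_finite _ (FcT F₀ E) hk hfin hf
    exact exists_biPoly_of_isAlgebraic (cstG F₀) (EcG E (cstG F₀))
      (fun e he => by
        obtain ⟨c, -, hc⟩ := (mem_EcG_iff (cstG F₀)).mp he
        exact ⟨c, hc⟩) j f h1
  exact separable_VRing (cstG F₀) (exG_cstG F₀) hEF ℓ hunif.mem_E hunif.ne_zero hunif.gen
    hX₀ hx hn halg _

/-- `Red1.TopLeaves` from the three fields `finite`, `qep_fin`, `qep_inf`. -/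
theorem topLeaves_of_finite_qep {ℓ : ℕ} [hℓ : Fact ℓ.Prime] (hA : A.LiesOverPrime ℓ) {w₀ : Qb}
    (hunif : IsUnifG A E w₀) {j : OmG F₀} (hjF : j ∈ FcT F₀ E)
    (hj : (j : LaurentSeries Qb) = coeffEmb Qb jq)
    (hfin : ∃ s : Finset (OmG F₀), (s : Set (OmG F₀)) ⊆ FcT F₀ E ∧
      ∀ f ∈ FcT F₀ E, f ∈ Submodule.span (ratField (EcG E (cstG F₀)) j) (s : Set (OmG F₀)))
    (hqf : ∀ b ∈ chart (FcT F₀ E) (RcG A E (cstG F₀)) j, b * (cstG F₀ w₀)⁻¹ ∈ VcT F₀ A E →
      b * (cstG F₀ w₀)⁻¹ ∈ chart (FcT F₀ E) (RcG A E (cstG F₀)) j)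
    (hqi : ∀ b ∈ chart (FcT F₀ E) (RcG A E (cstG F₀)) j⁻¹, b * (cstG F₀ w₀)⁻¹ ∈ VcT F₀ A E →
      b * (cstG F₀ w₀)⁻¹ ∈ chart (FcT F₀ E) (RcG A E (cstG F₀)) j⁻¹) :
    TopLeaves F₀ A E w₀ j :=
  { finite := hfin
    separable := separable_top hA hunif hjF hj hfin
    qep_fin := hqf
    qep_inf := hqi }

section Iota

variable {M : ℕ} (hle : modularFunctionFieldFull M ≤ F₀)

theorem coe_iotaG_jOm :
    ((iotaG M F₀ hle (jOm M) : OmG F₀) : LaurentSeries Qb) = coeffEmb Qb jq := by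
  rw [coe_iotaG]
  show coeffEmb Qb (qExpand ℚ 1 jq) = coeffEmb Qb jq
  rw [qExpand_one_apply]

include hle in
theorem jq_mem_of_full_le : jq ∈ F₀ := by
  have h : qExpand ℚ 1 jq ∈ modularFunctionFieldFull M := jqd_mem_full M (one_dvd M)
  rw [qExpand_one_apply] at h
  exact hle h

theorem iotaG_jOm_mem_FcT (E : Subfield Qb) : iotaG M F₀ hle (jOm M) ∈ FcT F₀ E := by
  have h : iotaG M F₀ hle (jOm M) = embG F₀ ⟨jq, jq_mem_of_full_le hle⟩ :=
    Subtype.ext (by rw [coe_iotaG_jOm, coe_embG])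
  rw [h]
  exact embG_mem_FcT E _

/-- The leaf `separable` of `Red1.TopLeaves F₀ A E w₀ (iotaG M F₀ hle (jOm M))`, VERBATIM,
from the leaf `finite`. -/
theorem separable_iotaG {ℓ : ℕ} [hℓ : Fact ℓ.Prime] {A : ValuationSubring Qb}
    (hA : A.LiesOverPrime ℓ) {E : Subfield Qb} {w₀ : Qb} (hunif : IsUnifG A E w₀)
    (hfin : ∃ s : Finset (OmG F₀), (s : Set (OmG F₀)) ⊆ FcT F₀ E ∧
      ∀ f ∈ FcT F₀ E, f ∈ Submodule.span
        (ratField (EcG E (cstG F₀)) (iotaG M F₀ hle (jOm M))) (s : Set (OmG F₀))) :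
    ∀ f ∈ VcT F₀ A E, ∃ P : Polynomial (OmG F₀),
      (∀ i, P.coeff i ∈ polyRing (RcG A E (cstG F₀)) (iotaG M F₀ hle (jOm M))) ∧
      P.eval f * (cstG F₀ w₀)⁻¹ ∈ VcT F₀ A E ∧ (Polynomial.derivative P).eval f ≠ 0 ∧
      ((Polynomial.derivative P).eval f)⁻¹ ∈ VcT F₀ A E :=
  separable_top hA hunif (iotaG_jOm_mem_FcT hle E) (coe_iotaG_jOm hle) hfin

/-- `Red1.TopLeaves F₀ A E w₀ (iotaG M F₀ hle (jOm M))` from `finite`, `qep_fin`, `qep_inf`. -/
theorem topLeaves_iotaG {ℓ : ℕ} [hℓ : Fact ℓ.Prime] {A : ValuationSubring Qb}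
    (hA : A.LiesOverPrime ℓ) {E : Subfield Qb} {w₀ : Qb} (hunif : IsUnifG A E w₀)
    (hfin : ∃ s : Finset (OmG F₀), (s : Set (OmG F₀)) ⊆ FcT F₀ E ∧
      ∀ f ∈ FcT F₀ E, f ∈ Submodule.span
        (ratField (EcG E (cstG F₀)) (iotaG M F₀ hle (jOm M))) (s : Set (OmG F₀)))
    (hqf : ∀ b ∈ chart (FcT F₀ E) (RcG A E (cstG F₀)) (iotaG M F₀ hle (jOm M)),
      b * (cstG F₀ w₀)⁻¹ ∈ VcT F₀ A E →
      b * (cstG F₀ w₀)⁻¹ ∈ chart (FcT F₀ E) (RcG A E (cstG F₀)) (iotaG M F₀ hle (jOm M)))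
    (hqi : ∀ b ∈ chart (FcT F₀ E) (RcG A E (cstG F₀)) (iotaG M F₀ hle (jOm M))⁻¹,
      b * (cstG F₀ w₀)⁻¹ ∈ VcT F₀ A E →
      b * (cstG F₀ w₀)⁻¹ ∈ chart (FcT F₀ E) (RcG A E (cstG F₀)) (iotaG M F₀ hle (jOm M))⁻¹) :
    TopLeaves F₀ A E w₀ (iotaG M F₀ hle (jOm M)) :=
  topLeaves_of_finite_qep hA hunif (iotaG_jOm_mem_FcT hle E) (coe_iotaG_jOm hle) hfin hqf hqi

end Iota

end Fermat.Agent.S48.H128
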